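import Mathlib
import Fermat.Prelude.Def_ModularCurve_HeckeOperator
import Fermat.Agent.S24_helper62.CuspEmb
import Fermat.Agent.S20_helper27.Prim

set_option autoImplicit false
set_option linter.style.haveILetI false

/-!
# GATE-J / J3-HN : `[F_{Nℓ} : F_N] = ℓ + 1` along `heckeAlphaBar`
-/

noncomputable section

namespace Fermat.Agent.GJ.HN

open ModularCurve AlgebraicCurve IntermediateField Fermat.Agent.S24

section Tower

variable {K F F' : Type*} [Field K] [Field F] [Field F'] [Algebra K F] [Algebra K F']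

/-- tower law through a `K`-embedding `φ : F → F'`, measured over `K(x)` and `K(φ x)` -/
theorem finrank_adjoin_tower (φ : F →ₐ[K] F') (x : F) :
    letI := φ.toRingHom.toAlgebra
    Module.finrank K⟮φ x⟯ F' = Module.finrank K⟮x⟯ F * Module.finrank F F' := by
  letI : Algebra F F' := φ.toRingHom.toAlgebra
  haveI : IsScalarTower K F F' := IsScalarTower.of_algebraMap_eq fun r => (φ.commutes r).symm
  have hmap : K⟮x⟯.map φ = K⟮φ x⟯ := by
    rw [IntermediateField.adjoin_map, Set.image_singleton]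
  let e : K⟮x⟯ ≃ₐ[K] K⟮φ x⟯ := (IntermediateField.equivMap K⟮x⟯ φ).trans (IntermediateField.equivOfEq hmap)
  rw [Module.finrank_mul_finrank K⟮x⟯ F F']
  symm
  refine Algebra.finrank_eq_of_equiv_equiv e.toRingEquiv (RingEquiv.refl F') ?_
  ext a
  rfl

end Tower

section Modular

variable (N ℓ : ℕ) [NeZero N] [NeZero ℓ]

/-- the inclusion `F_N → F_{Nℓ}` (prelude `heckeAlphaBar`) -/
abbrev alphaB : FN N →ₐ[Kbar] FN (N * ℓ) := heckeAlphaBar Kbar N ℓ

/-- `u(q) ↦ u(q^ℓ)`, `F_N → F_{Nℓ}` (prelude `heckeBetaBar`) -/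
abbrev betaB : FN N →ₐ[Kbar] FN (N * ℓ) := heckeBetaBar Kbar N ℓ

theorem alphaB_jdF {d : ℕ} [NeZero d] (hd : d ∣ N) :
    alphaB N ℓ (jdF N d hd) = jdF (N * ℓ) d (hd.mul_right ℓ) :=
  Subtype.ext rfl

theorem alphaB_jF : alphaB N ℓ (jF N) = jF (N * ℓ) := Subtype.ext rfl

theorem alphaB_injective : Function.Injective (alphaB N ℓ) := (alphaB N ℓ).toRingHom.injective

variable {N ℓ}

/-- **degree of `F_{Nℓ} / F_N`** along the inclusion, `ℓ` prime not dividing `N` -/
theorem finrank_alphaB (hℓ : ℓ.Prime) (hN : ¬ ℓ ∣ N) :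
    letI := algebraAlong (alphaB N ℓ)
    Module.finrank (FN N) (FN (N * ℓ)) = ℓ + 1 := by
  have h := finrank_adjoin_tower (alphaB N ℓ) (jF N)
  have e1 : Module.finrank Kbar⟮jF N⟯ (FN N) = dedekindPsi N := (Fermat.Agent.S24_helper62.m9 N).2.2
  have e2 : Module.finrank Kbar⟮jF (N * ℓ)⟯ (FN (N * ℓ)) = dedekindPsi (N * ℓ) :=
    (Fermat.Agent.S24_helper62.m9 (N * ℓ)).2.2
  have hcop : Nat.Coprime N ℓ := ((Nat.Prime.coprime_iff_not_dvd hℓ).mpr hN).symm
  have e3 : dedekindPsi (N * ℓ) = dedekindPsi N * (ℓ + 1) := by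
    rw [Fermat.Agent.S20_helper27.dedekindPsi_mul hcop]
    have := Fermat.Agent.S20_helper27.dedekindPsi_prime_pow hℓ (k := 1) one_pos
    simp only [pow_one, Nat.sub_self, pow_zero] at this
    rw [this]
  have hpos : 0 < dedekindPsi N := by
    have := Fermat.Agent.S24.Comb.card_I0 N
    rw [← this]
    exact Fintype.card_pos
  rw [alphaB_jF, e1, e2, e3] at h
  exact (Nat.eq_of_mul_eq_mul_left hpos h).symm

theorem finiteDimensional_alphaB (hℓ : ℓ.Prime) (hN : ¬ ℓ ∣ N) :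
    letI := algebraAlong (alphaB N ℓ)
    FiniteDimensional (FN N) (FN (N * ℓ)) := by
  letI := algebraAlong (alphaB N ℓ)
  apply FiniteDimensional.of_finrank_pos
  rw [finrank_alphaB hℓ hN]
  exact Nat.succ_pos _

theorem isSeparable_alphaB (hℓ : ℓ.Prime) (hN : ¬ ℓ ∣ N) :
    letI := algebraAlong (alphaB N ℓ)
    Algebra.IsSeparable (FN N) (FN (N * ℓ)) := by
  letI := algebraAlong (alphaB N ℓ)
  haveI := finiteDimensional_alphaB hℓ hN
  infer_instance

end Modular

end Fermat.Agent.GJ.HN
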