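import Mathlib

set_option autoImplicit false

/-!
# GATE-J / J3-HN : norm and trace as a product / sum over an explicit family of embeddings

`K ⊆ L` finite separable, `Ω` any `K`-field (NOT assumed algebraically closed), and
`s : ι → (L →ₐ[K] Ω)` an injective family with `card ι = [L : K]`.  Then the family is the
set of all `K`-embeddings (into an algebraic closure of `Ω`) and

  `algebraMap K Ω (Algebra.norm K x) = ∏ i, s i x`,
  `algebraMap K Ω (Algebra.trace K L x) = ∑ i, s i x`.
-/

namespace Fermat.Agent.GJ.HN

section NormEmb

variable {K L Ω : Type*} [Field K] [Field L] [Field Ω] [Algebra K L] [Algebra K Ω]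
variable [FiniteDimensional K L] [Algebra.IsSeparable K L]
variable {ι : Type*} [Fintype ι] (s : ι → (L →ₐ[K] Ω))

/-- the family pushed into an algebraic closure of `Ω` -/
noncomputable def pushAC (i : ι) : L →ₐ[K] AlgebraicClosure Ω :=
  (IsScalarTower.toAlgHom K Ω (AlgebraicClosure Ω)).comp (s i)

omit [FiniteDimensional K L] [Algebra.IsSeparable K L] [Fintype ι] in
theorem pushAC_apply (i : ι) (x : L) :
    pushAC s i x = algebraMap Ω (AlgebraicClosure Ω) (s i x) := rfl

omit [FiniteDimensional K L] [Algebra.IsSeparable K L] [Fintype ι] in
theorem pushAC_injective (hs : Function.Injective s) : Function.Injective (pushAC s) := by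
  intro i j hij
  apply hs
  ext x
  have := DFunLike.congr_fun hij x
  exact (algebraMap Ω (AlgebraicClosure Ω)).injective this

theorem pushAC_bijective (hs : Function.Injective s)
    (hcard : Fintype.card ι = Module.finrank K L) : Function.Bijective (pushAC s) := by
  rw [Fintype.bijective_iff_injective_and_card]
  exact ⟨pushAC_injective s hs, by rw [AlgHom.card K L (AlgebraicClosure Ω), hcard]⟩

/-- **Norm = product over an explicit family of embeddings** of the right cardinality. -/
theorem norm_eq_prod_of_embeddings (hs : Function.Injective s)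
    (hcard : Fintype.card ι = Module.finrank K L) (x : L) :
    algebraMap K Ω (Algebra.norm K x) = ∏ i, s i x := by
  apply (algebraMap Ω (AlgebraicClosure Ω)).injective
  rw [← IsScalarTower.algebraMap_apply,
    Algebra.norm_eq_prod_embeddings K (AlgebraicClosure Ω), map_prod]
  exact (Fintype.prod_bijective (pushAC s) (pushAC_bijective s hs hcard) _ _ fun i => rfl).symm

/-- **Trace = sum over an explicit family of embeddings** of the right cardinality. -/
theorem trace_eq_sum_of_embeddings (hs : Function.Injective s)
    (hcard : Fintype.card ι = Module.finrank K L) (x : L) :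
    algebraMap K Ω (Algebra.trace K L x) = ∑ i, s i x := by
  apply (algebraMap Ω (AlgebraicClosure Ω)).injective
  rw [← IsScalarTower.algebraMap_apply, trace_eq_sum_embeddings (AlgebraicClosure Ω), map_sum]
  exact (Fintype.sum_bijective (pushAC s) (pushAC_bijective s hs hcard) _ _ fun i => rfl).symm

/-- Every `K`-embedding of `L` into `Ω` belongs to the family. -/
theorem exists_eq_of_embeddings (hs : Function.Injective s)
    (hcard : Fintype.card ι = Module.finrank K L) (φ : L →ₐ[K] Ω) : ∃ i, s i = φ := by
  obtain ⟨i, hi⟩ := (pushAC_bijective s hs hcard).2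
    ((IsScalarTower.toAlgHom K Ω (AlgebraicClosure Ω)).comp φ)
  refine ⟨i, ?_⟩
  ext x
  have := DFunLike.congr_fun hi x
  exact (algebraMap Ω (AlgebraicClosure Ω)).injective this

end NormEmb

end Fermat.Agent.GJ.HN
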