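import Mathlib
import Fermat.Agent.GJ.HN.NormEmb
import Fermat.Agent.GJ.HN.Degree
import Fermat.Agent.GJ.J2.HeckeMult
import Fermat.Agent.S24_helper82.Realize2

set_option autoImplicit false
set_option linter.style.haveILetI false

/-!
# GATE-J / J3-HN : the Hecke norm on `Mer`

`realize N (Norm_{F_{Nℓ}/F_N} (β u)) = ∏_{x ∈ ℙ¹(𝔽_ℓ)} (realize N u) ∘ α_x = heckeProd ℓ (realize N u)`.
-/

noncomputable section

namespace Fermat.Agent.GJ.HN

open UpperHalfPlane ModularCurve AlgebraicCurve Fermat.Agent.S24 Fermat.Agent.S24_helper82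
open Fermat.Agent.S28 Fermat.Agent.S28.CuspExp
open Fermat.Agent.GJ.MerGL Fermat.Agent.GJ.HeckeMult Fermat.Agent.S16_helper49
open P2MW.S_ModularForm_heckeT_slash_eq_self_of_mem_Gamma0.ModularForm.HeckeSlashInvariance
open CongruenceSubgroup Matrix Matrix.SpecialLinearGroup
open scoped MatrixGroups Manifold OnePoint

section Basic

variable (N ℓ : ℕ) [NeZero N] [NeZero ℓ]

/-- the realisation is compatible with the inclusion `F_N ⊆ F_{Nℓ}` -/
theorem realize_alphaB (f : FN N) : realize (N * ℓ) (alphaB N ℓ f) = realize N f := by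
  have h : (realize (N * ℓ)).comp (alphaB N ℓ) = realize N := by
    apply algHom_ext_FN
    intro d _ hd
    show realize (N * ℓ) (alphaB N ℓ (jdF N d hd)) = realize N (jdF N d hd)
    rw [alphaB_jdF, realize_jdF, realize_jdF]
  exact DFunLike.congr_fun h f

/-- `compPM g` as a `ℚ̄`-algebra endomorphism of `Mer` -/
def compPMₐ (g : P) : Mer →ₐ[Kbar] Mer where
  __ := compPM g
  commutes' c := by
    show compPM g (algebraMap Kbar Mer c) = algebraMap Kbar Mer c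
    rw [algebraMap_Kbar_Mer, compPM_const]

@[simp] theorem compPMₐ_apply (g : P) (m : Mer) : compPMₐ g m = compPM g m := rfl

theorem betaB_jdF {d : ℕ} [NeZero d] (hd : d ∣ N) :
    betaB N ℓ (jdF N d hd) = jdF (N * ℓ) (d * ℓ) (Nat.mul_dvd_mul_right hd ℓ) := by
  apply Subtype.ext
  show qExpand Kbar ℓ (jdSeries d) = jdSeries (d * ℓ)
  rw [jdSeries, jdSeries, Fermat.Agent.S24_helper62.coeffEmb_qExpand,
    Fermat.Agent.S24_helper62.coeffEmb_qExpand, qExpand_qExpand]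
  exact qExpand_congr (mul_comm ℓ d) _

/-- the action of the Hecke representatives on points -/
theorem coe_heckeP_infty_smul (τ : ℍ) : ((heckeP ℓ ∞ • τ : ℍ) : ℂ) = (ℓ : ℂ) * τ :=
  ModularForm.coe_heckeDiagMatrix_smul (NeZero.ne ℓ) τ

theorem coe_heckeP_coe_smul (b : ZMod ℓ) (τ : ℍ) :
    ((heckeP ℓ (b : OnePoint (ZMod ℓ)) • τ : ℍ) : ℂ) = ((τ : ℂ) + (b.val : ℕ)) / ℓ :=
  ModularForm.coe_heckeMatrix_smul (NeZero.ne ℓ) b.val τ

theorem compP_heckeP_infty_jDilHol (d : ℕ) (hd : 0 < d) (hdl : 0 < d * ℓ) :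
    compP (heckeP ℓ ∞) (jDilHol d hd) = jDilHol (d * ℓ) hdl := by
  apply Subtype.ext
  funext τ
  show jDil d hd (heckeP ℓ ∞ • τ) = jDil (d * ℓ) hdl τ
  unfold jDil
  congr 1
  apply UpperHalfPlane.ext
  rw [coe_dilate, coe_dilate, coe_heckeP_infty_smul]
  push_cast
  ring

/-- `β` (i.e. `q ↦ q^ℓ`) is realised by `τ ↦ ℓ τ` -/
theorem realize_betaB (u : FN N) :
    realize (N * ℓ) (betaB N ℓ u) = compPM (heckeP ℓ ∞) (realize N u) := by
  have h : (realize (N * ℓ)).comp (betaB N ℓ) = (compPMₐ (heckeP ℓ ∞)).comp (realize N) := by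
    apply algHom_ext_FN
    intro d _ hd
    show realize (N * ℓ) (betaB N ℓ (jdF N d hd)) = compPM (heckeP ℓ ∞) (realize N (jdF N d hd))
    rw [betaB_jdF, realize_jdF, realize_jdF, compPM_algebraMap, compP_heckeP_infty_jDilHol]
  exact DFunLike.congr_fun h u

end Basic

/-! ### Representatives of `Γ₀(Nℓ) \ Γ₀(N)` -/

section Reps

variable {N ℓ : ℕ} [NeZero N] [Fact ℓ.Prime]

/-- the point `∞ · γ` of `ℙ¹(𝔽_ℓ)` (right action through `redMatrix`) -/
def infPt (ℓ : ℕ) [Fact ℓ.Prime] (γ : SL(2, ℤ)) : OnePoint (ZMod ℓ) := redMatrix ℓ γ • ∞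

theorem infPt_one : infPt ℓ 1 = ∞ := by
  rw [infPt, redMatrix_one, one_smul]

theorem infPt_mul (g h : SL(2, ℤ)) : infPt ℓ (g * h) = redMatrix ℓ h • infPt ℓ g := by
  rw [infPt, infPt, redMatrix_mul, mul_smul]

theorem infPt_eq_infty_iff (γ : SL(2, ℤ)) : infPt ℓ γ = ∞ ↔ (ℓ : ℤ) ∣ γ 1 0 := by
  rw [infPt, OnePoint.smul_infty_eq_self_iff, redMatrix_apply_one_zero,
    ZMod.intCast_zmod_eq_zero_iff_dvd]

theorem redMatrix_inv_smul (γ : SL(2, ℤ)) (x : OnePoint (ZMod ℓ)) :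
    redMatrix ℓ γ • redMatrix ℓ γ⁻¹ • x = x := by
  rw [← mul_smul, ← redMatrix_mul, inv_mul_cancel, redMatrix_one, one_smul]

omit [NeZero N] in
/-- every point of `ℙ¹(𝔽_ℓ)` is `∞ · γ` for some `γ ∈ Γ₀(N)` (`ℓ ∤ N`) -/
theorem exists_rep (hℓN : ¬ ℓ ∣ N) (x : OnePoint (ZMod ℓ)) :
    ∃ γ : SL(2, ℤ), γ ∈ Gamma0 N ∧ infPt ℓ γ = x := by
  have hℓ : ℓ.Prime := Fact.out
  induction x using OnePoint.rec with
  | infty => exact ⟨1, one_mem _, infPt_one⟩
  | coe b =>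
    -- `γ = [[u, -v], [N, d]]`, `d = b N + ℓ`, `u d + v N = 1`
    set d : ℤ := (b.val : ℤ) * N + ℓ with hd
    have hcop : IsCoprime d (N : ℤ) := by
      have h1 : IsCoprime (ℓ : ℤ) (N : ℤ) :=
        Nat.isCoprime_iff_coprime.mpr ((Nat.Prime.coprime_iff_not_dvd hℓ).mpr hℓN)
      rw [hd, add_comm]
      exact h1.add_mul_right_left _
    obtain ⟨u, v, huv⟩ := hcop
    let γ : SL(2, ℤ) := ⟨!![u, -v; (N : ℤ), d], by
      rw [Matrix.det_fin_two_of]; linear_combination huv⟩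
    have h10 : γ 1 0 = (N : ℤ) := rfl
    have h11 : γ 1 1 = d := rfl
    refine ⟨γ, ?_, ?_⟩
    · rw [Gamma0_mem, h10]
      simp
    · have hN0 : ((N : ℤ) : ZMod ℓ) ≠ 0 := by
        rw [Ne, ZMod.intCast_zmod_eq_zero_iff_dvd]
        exact_mod_cast hℓN
      rw [infPt, OnePoint.smul_infty_eq_ite, redMatrix_apply_one_zero, redMatrix_apply_zero_zero,
        h10, h11, if_neg hN0]
      congr 1
      rw [div_eq_iff hN0, hd]
      push_cast
      rw [ZMod.natCast_zmod_val, ZMod.natCast_self, add_zero]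

end Reps

/-! ### The `ℓ + 1` embeddings of `F_{Nℓ}` over `F_N` and the norm -/

section Norm

variable {N ℓ : ℕ} [NeZero N] [Fact ℓ.Prime]

theorem Sig_inv_alphaB {γ : SL(2, ℤ)} (hγ : γ ∈ Gamma0 N) (f : FN N) :
    Sig (N * ℓ) γ⁻¹ (alphaB N ℓ f) = realize N f := by
  rw [Sig_apply, inv_inv, realize_alphaB, compM_realize_of_mem_Gamma0 N hγ]

theorem Sig_inv_betaB (hℓN : ¬ ℓ ∣ N) {γ : SL(2, ℤ)} (hγ : γ ∈ Gamma0 N) (u : FN N) :
    Sig (N * ℓ) γ⁻¹ (betaB N ℓ u) = compPM (heckeP ℓ (infPt ℓ γ)) (realize N u) := by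
  have hrel := heckeP_mul_slP hℓN (⟨γ, hγ⟩ : Gamma0 N) (∞ : OnePoint (ZMod ℓ))
  rw [Sig_apply, inv_inv, realize_betaB, ← compPM_slP, ← compPM_mul, hrel, compPM_mul,
    compPM_slP, compM_realize_of_mem_Gamma0 N (cT hℓN ⟨γ, hγ⟩ ∞).2]
  rfl

/-- **The Hecke norm on `Mer`**: the realisation of `Norm_{F_{Nℓ}/F_N}(β u)` is
`∏_{x ∈ ℙ¹(𝔽_ℓ)} (realize N u) ∘ α_x`. -/
theorem realize_norm_betaB (hℓN : ¬ ℓ ∣ N) (u : FN N) :
    letI := algebraAlong (alphaB N ℓ)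
    realize N (Algebra.norm (FN N) (betaB N ℓ u)) = heckeProd ℓ (realize N u) := by
  have hℓ : ℓ.Prime := Fact.out
  letI : Algebra (FN N) (FN (N * ℓ)) := algebraAlong (alphaB N ℓ)
  letI : Algebra (FN N) Mer := (realize N).toRingHom.toAlgebra
  haveI : FiniteDimensional (FN N) (FN (N * ℓ)) := finiteDimensional_alphaB hℓ hℓN
  haveI : Algebra.IsSeparable (FN N) (FN (N * ℓ)) := isSeparable_alphaB hℓ hℓN
  choose γ hγ hγx using exists_rep (N := N) hℓN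
  let s : OnePoint (ZMod ℓ) → (FN (N * ℓ) →ₐ[FN N] Mer) := fun x =>
    { toRingHom := (Sig (N * ℓ) (γ x)⁻¹).toRingHom
      commutes' := fun f => Sig_inv_alphaB (hγ x) f }
  have hs : ∀ x (f : FN (N * ℓ)), s x f = Sig (N * ℓ) (γ x)⁻¹ f := fun x f => rfl
  have hinj : Function.Injective s := by
    intro x y hxy
    have h1 := DFunLike.congr_fun hxy (jdF (N * ℓ) (N * ℓ) dvd_rfl)
    rw [hs, hs] at h1
    have h2 := coset_eq_of_Sig_eq (N * ℓ) h1
    have h3 : (γ x)⁻¹⁻¹ * (γ y)⁻¹ ∈ Gamma0 (N * ℓ) := QuotientGroup.eq.mp h2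
    rw [inv_inv] at h3
    have h4 : (ℓ : ℤ) ∣ (γ x * (γ y)⁻¹) 1 0 := by
      have := dvd_of_mem_Gamma0 (⟨_, h3⟩ : Gamma0 (N * ℓ))
      exact dvd_trans (by push_cast; exact dvd_mul_left _ _) this
    rw [← infPt_eq_infty_iff, infPt_mul, hγx] at h4
    have h5 := congrArg (fun z => redMatrix ℓ (γ y) • z) h4
    rw [redMatrix_inv_smul] at h5
    rw [h5]
    exact hγx y
  have hcard : Fintype.card (OnePoint (ZMod ℓ)) = Module.finrank (FN N) (FN (N * ℓ)) := by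
    rw [finrank_alphaB hℓ hℓN, card_onePoint_zmod]
  have key := norm_eq_prod_of_embeddings s hinj hcard (betaB N ℓ u)
  rw [heckeProd_def]
  refine key.trans (Finset.prod_congr rfl fun x _ => ?_)
  rw [hs, Sig_inv_betaB hℓN (hγ x), hγx]

end Norm

end Fermat.Agent.GJ.HN
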