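import Mathlib
import Fermat.Agent.GJ.HN.NormMer
import Fermat.Agent.S24_helper62.CuspEmb

set_option autoImplicit false
set_option linter.style.haveILetI false

/-!
# GATE-J / J3-HN : the `q`-expansion of the Hecke norm

`Norm_{F_{Nℓ}/F_N}(β u)(q^ℓ) = u(q^{ℓ²}) · ∏_{b<ℓ} u(ζ^b q)`  in `ℚ̄((q))`, i.e. in the variable
`s = q^{1/ℓ}`:  `Norm = u(s^{ℓ²}) ∏_b u(ζ^b s)`.
-/

noncomputable section

namespace Fermat.Agent.GJ.HN

open UpperHalfPlane ModularCurve AlgebraicCurve Fermat.Agent.S24 Fermat.Agent.S24_helper82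
open Fermat.Agent.S24_helper62
open Fermat.Agent.S28 Fermat.Agent.S28.CuspExp
open Fermat.Agent.GJ.MerGL Fermat.Agent.GJ.HeckeMult Fermat.Agent.S16_helper49
open P2MW.S_ModularForm_heckeT_slash_eq_self_of_mem_Gamma0.ModularForm.HeckeSlashInvariance
open CongruenceSubgroup Matrix Matrix.SpecialLinearGroup
open scoped MatrixGroups Manifold OnePoint

/-! ### Polynomial elements of `F_N` -/

section Poly

variable (N : ℕ) [NeZero N]

/-- the generators `j(q^d)`, `d ∣ N`, of `F_N` -/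
def gF (d : DivIdx N) : FN N := jdF N d.1 d.2

/-- the polynomial expressions in the generators -/
def polyF (P : MvPolynomial (DivIdx N) Kbar) : FN N := MvPolynomial.aeval (gF N) P

theorem coe_polyF (P : MvPolynomial (DivIdx N) Kbar) :
    ((polyF N P : FN N) : LaurentSeries Kbar) = MvPolynomial.aeval (jFam Kbar N) P := by
  have h := MvPolynomial.comp_aeval_apply (f := gF N) (modularFunctionFieldBar N).val P
  have h2 : (fun d => (modularFunctionFieldBar N).val (gF N d)) = jFam Kbar N := by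
    funext d
    exact Fermat.Agent.S24_helper82.jdSeries_eq_jFam N d
  show (modularFunctionFieldBar N).val (MvPolynomial.aeval (gF N) P) = _
  rw [h]
  show MvPolynomial.aeval (fun d => (modularFunctionFieldBar N).val (gF N d)) P = _
  rw [h2]

/-- the holomorphic function attached to a polynomial -/
def polyHol (P : MvPolynomial (DivIdx N) Kbar) : Hol :=
  MvPolynomial.aeval (genHol N) (MvPolynomial.map iotaC P)

theorem coe_polyHol (P : MvPolynomial (DivIdx N) Kbar) :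
    ((polyHol N P : Hol) : ℍ → ℂ) = polyFn N (MvPolynomial.map iotaC P) :=
  coe_aeval_genHol N _

theorem realize_polyF (P : MvPolynomial (DivIdx N) Kbar) :
    realize N (polyF N P) = algebraMap Hol Mer (polyHol N P) := by
  have h := MvPolynomial.comp_aeval_apply (f := gF N) (realize N) P
  have h2 : (fun d => realize N (gF N d)) = genM N := by
    funext d
    exact realize_jdF N d.1 d.2
  show realize N (MvPolynomial.aeval (gF N) P) = _
  rw [h]
  show MvPolynomial.aeval (fun d => realize N (gF N d)) P = _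
  rw [h2, aeval_genM]
  rfl

/-- every element of `F_N` is a quotient of polynomial elements -/
theorem exists_polyF_div (u : FN N) :
    ∃ P Q : MvPolynomial (DivIdx N) Kbar, polyF N Q ≠ 0 ∧ u * polyF N Q = polyF N P := by
  have hu : (u : LaurentSeries Kbar) ∈ modularFunctionFieldFullC Kbar N := by
    rw [← modularFunctionFieldBar_eq]
    exact u.2
  obtain ⟨P, Q, hPQ⟩ := exists_div_of_mem_full Kbar N hu
  by_cases hQ : polyF N Q = 0
  · refine ⟨0, 1, ?_, ?_⟩
    · rw [polyF, map_one]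
      exact one_ne_zero
    · have h0 : (u : LaurentSeries Kbar) = 0 := by
        rw [hPQ, ← coe_polyF N Q, hQ]
        simp
      have : u = 0 := Subtype.ext h0
      rw [this, zero_mul, polyF, map_zero]
  · refine ⟨P, Q, hQ, ?_⟩
    apply Subtype.ext
    have hQ' : ((polyF N Q : FN N) : LaurentSeries Kbar) ≠ 0 := fun h => hQ (Subtype.ext h)
    show (u : LaurentSeries Kbar) * ((polyF N Q : FN N) : LaurentSeries Kbar)
      = ((polyF N P : FN N) : LaurentSeries Kbar)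
    rw [hPQ, ← coe_polyF N P, ← coe_polyF N Q, div_mul_cancel₀ _ hQ']

/-- the width-one cusp expansion of a polynomial function -/
theorem cuspExp_polyHol (P : MvPolynomial (DivIdx N) Kbar) :
    cuspExp 1 ((polyHol N P : Hol) : ℍ → ℂ) =
      coeffMap iotaC ((polyF N P : FN N) : LaurentSeries Kbar) := by
  rw [coe_polyHol, cuspExp_polyFn, coe_polyF]

theorem isCE_polyHol (P : MvPolynomial (DivIdx N) Kbar) :
    IsCE 1 ((polyHol N P : Hol) : ℍ → ℂ) := by
  rw [coe_polyHol]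
  exact isCE_polyFn N _

end Poly

/-! ### Cusp expansions of `f ∘ α_x` and of finite products -/

section Expansions

variable {ℓ : ℕ} [Fact ℓ.Prime]

theorem isCE_prod {h : ℝ} (hh : 0 < h) {ι : Type*} (s : Finset ι) (f : ι → ℍ → ℂ)
    (hf : ∀ i ∈ s, IsCE h (f i)) :
    IsCE h (∏ i ∈ s, f i) ∧ cuspExp h (∏ i ∈ s, f i) = ∏ i ∈ s, cuspExp h (f i) := by
  classical
  induction s using Finset.induction_on with
  | empty =>
    rw [Finset.prod_empty, Finset.prod_empty]
    have h1 : (1 : ℍ → ℂ) = fun _ => (1 : ℂ) := rfl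
    rw [h1]
    exact ⟨isCE_const h 1, by rw [cuspExp_const hh, map_one]⟩
  | insert a s ha ih =>
    have ih' := ih fun i hi => hf i (Finset.mem_insert_of_mem hi)
    have ha' := hf a (Finset.mem_insert_self a s)
    rw [Finset.prod_insert ha, Finset.prod_insert ha]
    exact ⟨ha'.mul hh ih'.1, by rw [cuspExp_mul hh ha' ih'.1, ih'.2]⟩

/-- the chosen primitive `ℓ`-th root of unity `exp(2πi/ℓ)` as a unit of `ℂ` -/
def xiC (ℓ : ℕ) [Fact ℓ.Prime] : ℂˣ := Units.map (iotaC : Kbar →* ℂ) (zetaBar ℓ)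

theorem coe_xiC : ((xiC ℓ : ℂˣ) : ℂ) = Complex.exp (2 * Real.pi * Complex.I / ℓ) :=
  iotaC_zetaBar ℓ

theorem isCE_comp_heckeP_infty {f : ℍ → ℂ} (hf : IsCE 1 f) :
    IsCE ℓ (fun τ => f (heckeP ℓ ∞ • τ)) ∧
      cuspExp ℓ (fun τ => f (heckeP ℓ ∞ • τ)) = qExpand ℂ (ℓ * ℓ) (cuspExp 1 f) := by
  have hℓ : 0 < ℓ := (Fact.out : ℓ.Prime).pos
  have h := isCE_subst hf ℓ 0 1 ℓ (ℓ * ℓ) one_pos hℓ (by ring) (1 : ℂˣ) (by simp)
    (fun τ => heckeP ℓ ∞ • τ) (fun τ => by rw [coe_heckeP_infty_smul]; simp)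
  rw [cuspS_one] at h
  exact h

theorem isCE_comp_heckeP_coe {f : ℍ → ℂ} (hf : IsCE 1 f) (b : ZMod ℓ) :
    IsCE ℓ (fun τ => f (heckeP ℓ (b : OnePoint (ZMod ℓ)) • τ)) ∧
      cuspExp ℓ (fun τ => f (heckeP ℓ (b : OnePoint (ZMod ℓ)) • τ))
        = scaleHom ℂ (xiC ℓ ^ b.val) (cuspExp 1 f) := by
  have hℓ : 0 < ℓ := (Fact.out : ℓ.Prime).pos
  have hℓ0 : (ℓ : ℂ) ≠ 0 := Nat.cast_ne_zero.mpr hℓ.ne'
  have h := isCE_subst hf 1 b.val ℓ ℓ 1 hℓ hℓ (by ring) (xiC ℓ ^ b.val)
    (by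
      rw [Units.val_pow_eq_pow_val, coe_xiC, ← Complex.exp_nat_mul]
      congr 1
      field_simp)
    (fun τ => heckeP ℓ (b : OnePoint (ZMod ℓ)) • τ)
    (fun τ => by rw [coe_heckeP_coe_smul]; simp)
  rw [cuspS, RingHom.comp_apply, qExpand_one_apply] at h
  exact h

end Expansions

/-! ### The two sides of the norm formula as functionals on Laurent series -/

section Phi

variable (ℓ : ℕ) [Fact ℓ.Prime]

/-- `y ↦ y(s^{ℓ²}) ∏_b y(ξ^b s)` over `ℂ` -/
def PhiC (y : LaurentSeries ℂ) : LaurentSeries ℂ :=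
  qExpand ℂ (ℓ * ℓ) y * ∏ b : ZMod ℓ, scaleHom ℂ (xiC ℓ ^ b.val) y

/-- `y ↦ y(s^{ℓ²}) ∏_b y(ζ^b s)` over `ℚ̄` -/
def PhiK (y : LaurentSeries Kbar) : LaurentSeries Kbar :=
  qExpand Kbar (ℓ * ℓ) y * ∏ b : ZMod ℓ, scaleHom Kbar (zetaBar ℓ ^ b.val) y

theorem coeffMap_PhiK (y : LaurentSeries Kbar) :
    coeffMap iotaC (PhiK ℓ y) = PhiC ℓ (coeffMap iotaC y) := by
  rw [PhiK, PhiC, map_mul, coeffMap_qExpand, map_prod]
  congr 1
  refine Finset.prod_congr rfl fun b _ => ?_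
  rw [coeffMap_scaleHom, map_pow]
  rfl

theorem PhiK_mul (x y : LaurentSeries Kbar) : PhiK ℓ (x * y) = PhiK ℓ x * PhiK ℓ y := by
  simp only [PhiK, map_mul, Finset.prod_mul_distrib]
  ring

theorem scaleHom_injective {R : Type*} [CommRing R] (c : Rˣ) :
    Function.Injective (scaleHom R c) := by
  intro x y hxy
  ext m
  have h := congrArg (fun z => z.coeff m) hxy
  simp only [scaleHom_coeff] at h
  exact (Units.mul_right_inj (c ^ m)).mp h

theorem PhiK_ne_zero {y : LaurentSeries Kbar} (hy : y ≠ 0) : PhiK ℓ y ≠ 0 := by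
  rw [PhiK]
  refine mul_ne_zero ?_ (Finset.prod_ne_zero_iff.mpr fun b _ => ?_)
  · exact (map_ne_zero_iff _ (qExpand_injective (ℓ * ℓ))).mpr hy
  · exact (map_ne_zero_iff _ (scaleHom_injective _)).mpr hy

end Phi

/-! ### Assembly -/

section Assembly

variable {N ℓ : ℕ} [NeZero N] [Fact ℓ.Prime]

/-- coefficientwise `ℚ̄ → ℂ` of the `q`-expansion of an element of `F_N` -/
def cm (f : FN N) : LaurentSeries ℂ := coeffMap iotaC (f : LaurentSeries Kbar)

theorem cm_mul (f g : FN N) : cm (f * g) = cm f * cm g := by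
  show coeffMap iotaC ((f : LaurentSeries Kbar) * (g : LaurentSeries Kbar)) = _
  rw [map_mul]
  rfl

theorem cm_ne_zero {f : FN N} (hf : f ≠ 0) : cm f ≠ 0 := by
  rw [cm, Ne, EvalBridge.coeffMap_eq_zero_iff iotaC iotaC_injective]
  exact fun h => hf (Subtype.ext h)

/-- the product of the `ℓ + 1` translates of a polynomial function, with its cusp expansion -/
theorem cuspExp_prod_compP (P : MvPolynomial (DivIdx N) Kbar) :
    IsCE ℓ (∏ x : OnePoint (ZMod ℓ), ((compP (heckeP ℓ x) (polyHol N P) : Hol) : ℍ → ℂ)) ∧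
      cuspExp ℓ (∏ x : OnePoint (ZMod ℓ), ((compP (heckeP ℓ x) (polyHol N P) : Hol) : ℍ → ℂ))
        = PhiC ℓ (cm (polyF N P)) := by
  have hℓ : (0 : ℝ) < ℓ := by exact_mod_cast (Fact.out : ℓ.Prime).pos
  have hf := isCE_polyHol N P
  have hx : ∀ x : OnePoint (ZMod ℓ),
      IsCE ℓ ((compP (heckeP ℓ x) (polyHol N P) : Hol) : ℍ → ℂ) := by
    intro x
    induction x using OnePoint.rec with
    | infty => exact (isCE_comp_heckeP_infty hf).1
    | coe b => exact (isCE_comp_heckeP_coe hf b).1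
  obtain ⟨h1, h2⟩ := isCE_prod hℓ Finset.univ
    (fun x : OnePoint (ZMod ℓ) => ((compP (heckeP ℓ x) (polyHol N P) : Hol) : ℍ → ℂ))
    (fun x _ => hx x)
  refine ⟨h1, ?_⟩
  rw [h2, PhiC]
  have h3 := Fintype.prod_option
    (fun x : OnePoint (ZMod ℓ) => cuspExp ℓ ((compP (heckeP ℓ x) (polyHol N P) : Hol) : ℍ → ℂ))
  refine h3.trans ?_
  congr 1
  · exact ((isCE_comp_heckeP_infty hf).2).trans (by rw [cuspExp_polyHol]; rfl)
  · refine Finset.prod_congr rfl fun b _ => ?_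
    exact ((isCE_comp_heckeP_coe hf b).2).trans (by rw [cuspExp_polyHol]; rfl)

/-- **HN1 for polynomial elements.** -/
theorem coe_norm_betaB_polyF (hℓN : ¬ ℓ ∣ N) (P : MvPolynomial (DivIdx N) Kbar) :
    letI := algebraAlong (alphaB N ℓ)
    qExpand Kbar ℓ ((Algebra.norm (FN N) (betaB N ℓ (polyF N P)) : FN N) : LaurentSeries Kbar)
      = PhiK ℓ ((polyF N P : FN N) : LaurentSeries Kbar) := by
  letI : Algebra (FN N) (FN (N * ℓ)) := algebraAlong (alphaB N ℓ)
  set w : FN N := Algebra.norm (FN N) (betaB N ℓ (polyF N P)) with hw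
  obtain ⟨P', Q', hQ', hPQ⟩ := exists_polyF_div N w
  -- the identity in `Mer`, then in `Hol`
  have hM := realize_norm_betaB hℓN (polyF N P)
  rw [← hw, realize_polyF, heckeProd_def] at hM
  have hM2 : realize N w =
      algebraMap Hol Mer (∏ x : OnePoint (ZMod ℓ), compP (heckeP ℓ x) (polyHol N P)) := by
    rw [hM, map_prod]
    exact Finset.prod_congr rfl fun x _ => compPM_algebraMap _ _
  have hR := congrArg (realize N) hPQ
  rw [map_mul, realize_polyF, realize_polyF, hM2, ← map_mul] at hR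
  have hH := IsFractionRing.injective Hol Mer hR
  -- as functions on the upper half plane
  have hF := congrArg (fun f : Hol => (f : ℍ → ℂ)) hH
  have hval : ((∏ x : OnePoint (ZMod ℓ), compP (heckeP ℓ x) (polyHol N P) : Hol) : ℍ → ℂ)
      = ∏ x : OnePoint (ZMod ℓ), ((compP (heckeP ℓ x) (polyHol N P) : Hol) : ℍ → ℂ) :=
    map_prod Hol.val _ _
  have hF' : (∏ x : OnePoint (ZMod ℓ), ((compP (heckeP ℓ x) (polyHol N P) : Hol) : ℍ → ℂ))
      * ((polyHol N Q' : Hol) : ℍ → ℂ) = ((polyHol N P' : Hol) : ℍ → ℂ) := by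
    rw [← hval]
    exact hF
  -- cusp expansions of width `ℓ`
  have hℓ : (0 : ℝ) < ℓ := by exact_mod_cast (Fact.out : ℓ.Prime).pos
  obtain ⟨hG1, hG2⟩ := cuspExp_prod_compP (ℓ := ℓ) P
  have hQce := (isCE_polyHol N Q').period_nat ℓ
  have hE := congrArg (cuspExp ℓ) hF'
  rw [cuspExp_mul hℓ hG1 hQce, hG2, cuspExp_period_nat (isCE_polyHol N Q') ℓ,
    cuspExp_period_nat (isCE_polyHol N P') ℓ, cuspExp_polyHol, cuspExp_polyHol] at hE
  -- compare with the algebraic relation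
  have hA : qExpand ℂ ℓ (cm w) * qExpand ℂ ℓ (cm (polyF N Q')) = qExpand ℂ ℓ (cm (polyF N P')) := by
    rw [← map_mul, ← cm_mul, hPQ]
  have hne : qExpand ℂ ℓ (cm (polyF N Q')) ≠ 0 :=
    (map_ne_zero_iff _ (qExpand_injective ℓ)).mpr (cm_ne_zero hQ')
  have hfin : qExpand ℂ ℓ (cm w) = PhiC ℓ (cm (polyF N P)) := by
    apply mul_right_cancel₀ hne
    rw [hA]
    exact hE.symm
  apply EvalBridge.coeffMap_injective iotaC iotaC_injective
  rw [coeffMap_qExpand, coeffMap_PhiK]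
  exact hfin

theorem prod_zmod_val {M : Type*} [CommMonoid M] (n : ℕ) [NeZero n] (f : ℕ → M) :
    ∏ b : ZMod n, f b.val = ∏ i ∈ Finset.range n, f i := by
  cases n with
  | zero => exact absurd rfl (NeZero.ne 0)
  | succ n => exact Fin.prod_univ_eq_prod_range f (n + 1)

/-- **HN1** (`q`-expansion of the Hecke norm), in the functional form. -/
theorem coe_norm_betaB_PhiK (hℓN : ¬ ℓ ∣ N) (u : FN N) :
    letI := algebraAlong (alphaB N ℓ)
    qExpand Kbar ℓ ((Algebra.norm (FN N) (betaB N ℓ u) : FN N) : LaurentSeries Kbar)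
      = PhiK ℓ (u : LaurentSeries Kbar) := by
  letI : Algebra (FN N) (FN (N * ℓ)) := algebraAlong (alphaB N ℓ)
  obtain ⟨P, Q, hQ, hPQ⟩ := exists_polyF_div N u
  have hP := coe_norm_betaB_polyF hℓN P
  have hQ2 := coe_norm_betaB_polyF hℓN Q
  have hnorm : Algebra.norm (FN N) (betaB N ℓ u) * Algebra.norm (FN N) (betaB N ℓ (polyF N Q))
      = Algebra.norm (FN N) (betaB N ℓ (polyF N P)) := by
    rw [← map_mul, ← map_mul, hPQ]
  have hcoe := congrArg (fun f : FN N => qExpand Kbar ℓ (f : LaurentSeries Kbar)) hnorm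
  have hcoe' : qExpand Kbar ℓ ((Algebra.norm (FN N) (betaB N ℓ u) : FN N) : LaurentSeries Kbar) *
      qExpand Kbar ℓ
        ((Algebra.norm (FN N) (betaB N ℓ (polyF N Q)) : FN N) : LaurentSeries Kbar)
      = qExpand Kbar ℓ
        ((Algebra.norm (FN N) (betaB N ℓ (polyF N P)) : FN N) : LaurentSeries Kbar) := by
    rw [← map_mul]
    exact hcoe
  rw [hP, hQ2] at hcoe'
  have hQne : ((polyF N Q : FN N) : LaurentSeries Kbar) ≠ 0 := fun h => hQ (Subtype.ext h)
  have hmul : PhiK ℓ (u : LaurentSeries Kbar) * PhiK ℓ ((polyF N Q : FN N) : LaurentSeries Kbar)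
      = PhiK ℓ ((polyF N P : FN N) : LaurentSeries Kbar) := by
    rw [← PhiK_mul]
    congr 1
    exact congrArg (fun f : FN N => (f : LaurentSeries Kbar)) hPQ
  apply mul_right_cancel₀ (PhiK_ne_zero ℓ hQne)
  rw [hcoe', hmul]

/-- **HN1**: the `q`-expansion of `Norm_{F_{Nℓ}/F_N}(β u)`: in the variable `s = q^{1/ℓ}` it is
`u(s^{ℓ²}) · ∏_{b<ℓ} u(ζ^b s)`, `ζ = zetaBar ℓ` the primitive `ℓ`-th root of unity of `ℚ̄` mapping to
`exp(2πi/ℓ)`. -/
theorem coe_norm_betaB (hℓN : ¬ ℓ ∣ N) (u : FN N) :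
    letI := algebraAlong (alphaB N ℓ)
    qExpand Kbar ℓ ((Algebra.norm (FN N) (betaB N ℓ u) : FN N) : LaurentSeries Kbar)
      = qExpand Kbar ℓ (qExpand Kbar ℓ (u : LaurentSeries Kbar)) *
        ∏ b ∈ Finset.range ℓ, scaleHom Kbar (zetaBar ℓ ^ b) (u : LaurentSeries Kbar) := by
  have h := coe_norm_betaB_PhiK hℓN u
  rw [PhiK, prod_zmod_val ℓ (fun b => scaleHom Kbar (zetaBar ℓ ^ b) (u : LaurentSeries Kbar)),
    ← qExpand_qExpand] at h
  exact h

end Assembly

end Fermat.Agent.GJ.HN
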