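import Mathlib

/-!
# GATE-J / J3-HN (helper43), file 1: the fibre `Γ₀(N) / Γ₀(Nℓ)`, `ℓ` prime, `ℓ ∤ N`

Pure `SL(2,ℤ)` / `ZMod ℓ` bookkeeping (Mathlib only).  For `g ∈ SL(2,ℤ)` with `ℓ ∤ g 1 0` we put
`slope ℓ g = g 1 1 / g 1 0 ∈ ZMod ℓ`.  Two elements of `Γ₀(N)` with lower-left entries prime to
`ℓ` lie in the same right coset of `Γ₀(Nℓ)` iff their slopes agree; every slope occurs.
-/

set_option autoImplicit false

namespace Fermat.Agent.GJ.HN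

open Matrix MatrixGroups

/-- lower-left entry of a product -/
theorem mul_lower_left (γ g : SL(2, ℤ)) : (γ * g) 1 0 = γ 1 0 * g 0 0 + γ 1 1 * g 1 0 := by
  rw [Matrix.SpecialLinearGroup.coe_mul, Matrix.mul_apply, Fin.sum_univ_two]

/-- lower-right entry of a product -/
theorem mul_lower_right (γ g : SL(2, ℤ)) : (γ * g) 1 1 = γ 1 0 * g 0 1 + γ 1 1 * g 1 1 := by
  rw [Matrix.SpecialLinearGroup.coe_mul, Matrix.mul_apply, Fin.sum_univ_two]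

theorem inv_lower_left (g : SL(2, ℤ)) : (g⁻¹) 1 0 = -g 1 0 := by
  rw [Matrix.SpecialLinearGroup.coe_inv, Matrix.adjugate_fin_two]
  simp

theorem inv_upper_left (g : SL(2, ℤ)) : (g⁻¹) 0 0 = g 1 1 := by
  rw [Matrix.SpecialLinearGroup.coe_inv, Matrix.adjugate_fin_two]
  simp

theorem inv_lower_right (g : SL(2, ℤ)) : (g⁻¹) 1 1 = g 0 0 := by
  rw [Matrix.SpecialLinearGroup.coe_inv, Matrix.adjugate_fin_two]
  simp

/-- lower-left entry of `g * g'⁻¹` -/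
theorem mul_inv_lower_left' (g g' : SL(2, ℤ)) :
    (g * g'⁻¹) 1 0 = g 1 0 * g' 1 1 - g 1 1 * g' 1 0 := by
  rw [mul_lower_left, inv_upper_left, inv_lower_left]
  ring

theorem det_entries' (g : SL(2, ℤ)) : g 0 0 * g 1 1 - g 0 1 * g 1 0 = 1 := by
  have := g.det_coe
  rw [Matrix.det_fin_two] at this
  exact this

theorem mem_Gamma0_iff_dvd (N : ℕ) (g : SL(2, ℤ)) : g ∈ CongruenceSubgroup.Gamma0 N ↔ (N : ℤ) ∣ g 1 0 := by
  rw [CongruenceSubgroup.Gamma0_mem, ZMod.intCast_zmod_eq_zero_iff_dvd]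

section

variable (N ℓ : ℕ) (hcop : Nat.Coprime N ℓ)
include hcop

theorem mem_Gamma0_mul_iff (g : SL(2, ℤ)) :
    g ∈ CongruenceSubgroup.Gamma0 (N * ℓ) ↔ g ∈ CongruenceSubgroup.Gamma0 N ∧ (ℓ : ℤ) ∣ g 1 0 := by
  rw [mem_Gamma0_iff_dvd, mem_Gamma0_iff_dvd]
  push_cast
  constructor
  · intro h
    exact ⟨dvd_trans (dvd_mul_right _ _) h, dvd_trans (dvd_mul_left _ _) h⟩
  · rintro ⟨h1, h2⟩
    have : IsCoprime (N : ℤ) (ℓ : ℤ) := Nat.isCoprime_iff_coprime.mpr hcop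
    exact this.mul_dvd h1 h2

end

section Slope

variable (ℓ : ℕ) [Fact ℓ.Prime]

/-- the slope `g 1 1 / g 1 0` in `ZMod ℓ` -/
noncomputable def slope (g : SL(2, ℤ)) : ZMod ℓ :=
  ((g 1 1 : ℤ) : ZMod ℓ) * ((g 1 0 : ℤ) : ZMod ℓ)⁻¹

variable {ℓ}

theorem cast_ne_zero_of_not_dvd {c : ℤ} (h : ¬ (ℓ : ℤ) ∣ c) : ((c : ℤ) : ZMod ℓ) ≠ 0 := by
  rwa [Ne, ZMod.intCast_zmod_eq_zero_iff_dvd]

/-- the slope is the unique `b` with `g 1 1 = b * g 1 0` in `ZMod ℓ` -/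
theorem slope_mul_cast {g : SL(2, ℤ)} (h : ¬ (ℓ : ℤ) ∣ g 1 0) :
    slope ℓ g * ((g 1 0 : ℤ) : ZMod ℓ) = ((g 1 1 : ℤ) : ZMod ℓ) := by
  rw [slope, mul_assoc, inv_mul_cancel₀ (cast_ne_zero_of_not_dvd h), mul_one]

theorem slope_eq_of_mul_eq {g : SL(2, ℤ)} (h : ¬ (ℓ : ℤ) ∣ g 1 0) {b : ZMod ℓ}
    (hb : b * ((g 1 0 : ℤ) : ZMod ℓ) = ((g 1 1 : ℤ) : ZMod ℓ)) : slope ℓ g = b := by
  rw [slope, ← hb, mul_assoc, mul_inv_cancel₀ (cast_ne_zero_of_not_dvd h), mul_one]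

/-- left multiplication by an element with `ℓ ∣ γ 1 0` keeps `ℓ ∤ c` -/
theorem not_dvd_mul_left {γ g : SL(2, ℤ)} (hγ : (ℓ : ℤ) ∣ γ 1 0) (h : ¬ (ℓ : ℤ) ∣ g 1 0) :
    ¬ (ℓ : ℤ) ∣ (γ * g) 1 0 := by
  have hp : Prime (ℓ : ℤ) := Nat.prime_iff_prime_int.mp (Fact.out : ℓ.Prime)
  rw [mul_lower_left]
  intro hd
  have h1 : (ℓ : ℤ) ∣ γ 1 1 * g 1 0 := by
    have := dvd_sub hd (dvd_mul_of_dvd_left hγ (g 0 0))
    simpa using this
  rcases hp.dvd_or_dvd h1 with h2 | h2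
  · -- `ℓ ∣ γ 1 1` and `ℓ ∣ γ 1 0` contradict `det γ = 1`
    have hdet := det_entries' γ
    have : (ℓ : ℤ) ∣ 1 := by
      rw [← hdet]
      exact dvd_sub (dvd_mul_of_dvd_right h2 _) (dvd_mul_of_dvd_right hγ _)
    exact hp.not_dvd_one this
  · exact h h2

/-- left multiplication by an element with `ℓ ∣ γ 1 0` does not change the slope -/
theorem slope_mul_left {γ g : SL(2, ℤ)} (hγ : (ℓ : ℤ) ∣ γ 1 0) (h : ¬ (ℓ : ℤ) ∣ g 1 0) :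
    slope ℓ (γ * g) = slope ℓ g := by
  apply slope_eq_of_mul_eq (not_dvd_mul_left hγ h)
  have hγ0 : ((γ 1 0 : ℤ) : ZMod ℓ) = 0 := (ZMod.intCast_zmod_eq_zero_iff_dvd _ _).mpr hγ
  rw [mul_lower_left, mul_lower_right]
  push_cast
  rw [hγ0, zero_mul, zero_mul, zero_add, zero_add, ← slope_mul_cast h]
  ring

/-- same slope ⇒ same right coset of `{ℓ ∣ c}` -/
theorem dvd_mul_inv_lower_left_of_slope_eq {g g' : SL(2, ℤ)} (h : ¬ (ℓ : ℤ) ∣ g 1 0)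
    (h' : ¬ (ℓ : ℤ) ∣ g' 1 0) (hs : slope ℓ g = slope ℓ g') : (ℓ : ℤ) ∣ (g * g'⁻¹) 1 0 := by
  rw [mul_inv_lower_left', ← ZMod.intCast_zmod_eq_zero_iff_dvd]
  push_cast
  rw [← slope_mul_cast h, ← slope_mul_cast h', hs]
  ring

/-- the slope after right multiplication by `T⁻¹` -/
theorem slope_mul_T_inv {g : SL(2, ℤ)} (h : ¬ (ℓ : ℤ) ∣ g 1 0) :
    slope ℓ (g * ModularGroup.T⁻¹) = slope ℓ g - 1 ∧ (g * ModularGroup.T⁻¹) 1 0 = g 1 0 := by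
  have h10 : (g * ModularGroup.T⁻¹) 1 0 = g 1 0 := by
    rw [mul_lower_left, inv_upper_left, inv_lower_left]
    simp [ModularGroup.T]
  have h11 : (g * ModularGroup.T⁻¹) 1 1 = g 1 1 - g 1 0 := by
    rw [mul_lower_right, inv_lower_right]
    have : (ModularGroup.T⁻¹ : SL(2, ℤ)) 0 1 = -1 := by
      rw [Matrix.SpecialLinearGroup.coe_inv, Matrix.adjugate_fin_two]
      simp [ModularGroup.T]
    rw [this]
    simp [ModularGroup.T]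
    ring
  refine ⟨?_, h10⟩
  apply slope_eq_of_mul_eq (by rw [h10]; exact h)
  rw [h10, h11]
  push_cast
  rw [← slope_mul_cast h]
  ring

end Slope

section Reps

variable (N ℓ : ℕ) [Fact ℓ.Prime] (hℓN : ¬ ℓ ∣ N)

/-- the integer `k` with `1 + N k ≡ b N (mod ℓ)` -/
noncomputable def repK (b : ZMod ℓ) : ℤ := (((b * (N : ZMod ℓ) - 1) * (N : ZMod ℓ)⁻¹ : ZMod ℓ).val : ℤ)

/-- the representative `[[1, k], [N, 1 + N k]]` of slope `b` -/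
noncomputable def repB (b : ZMod ℓ) : SL(2, ℤ) :=
  ⟨!![1, repK N ℓ b; (N : ℤ), 1 + N * repK N ℓ b], by
    rw [Matrix.det_fin_two_of]; ring⟩

@[simp] theorem repB_lower_left (b : ZMod ℓ) : (repB N ℓ b) 1 0 = N := rfl

@[simp] theorem repB_lower_right (b : ZMod ℓ) : (repB N ℓ b) 1 1 = 1 + N * repK N ℓ b := rfl

theorem repB_mem_Gamma0 (b : ZMod ℓ) : repB N ℓ b ∈ CongruenceSubgroup.Gamma0 N := by
  rw [mem_Gamma0_iff_dvd, repB_lower_left]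

include hℓN

theorem natCast_ne_zero_of_not_dvd : ((N : ℕ) : ZMod ℓ) ≠ 0 := by
  rwa [Ne, ZMod.natCast_eq_zero_iff]

theorem not_dvd_repB (b : ZMod ℓ) : ¬ (ℓ : ℤ) ∣ (repB N ℓ b) 1 0 := by
  rw [repB_lower_left]
  exact_mod_cast hℓN

theorem slope_repB (b : ZMod ℓ) : slope ℓ (repB N ℓ b) = b := by
  apply slope_eq_of_mul_eq (not_dvd_repB N ℓ hℓN b)
  rw [repB_lower_left, repB_lower_right]
  push_cast
  rw [repK]
  have hN := natCast_ne_zero_of_not_dvd N ℓ hℓN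
  rw [Int.cast_natCast, ZMod.natCast_zmod_val]
  field_simp
  ring

end Reps

end Fermat.Agent.GJ.HN
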