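import Fermat.Agent.S24_helper62.CuspSeries
import Fermat.Agent.GJ.HN.Cosets

/-!
# GATE-J / J3-HN (helper43), file 2: the two Hermite expansions needed for the Hecke norm

Level `M = N * ℓ`, `t = q^{1/M}`, `ζ` an `M`-th root of unity.  For `g ∈ SL(2,ℤ)`:

* `hermiteSer_of_dvd` : if `d ∣ g 1 0` the expansion of `j(d · g z)` is `j(t^{M d})`;
* `hermiteSer_beta`   : if `N ∣ g 1 0`, `ℓ ∤ g 1 0`, `d ∣ N`, the expansion of `j(ℓ d · g z)` is
  `j((ζ^k t)^{N d})` for any integer `k` representing the slope `g 1 1 / g 1 0 ∈ ZMod ℓ`;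
* `An_eq_of_hermiteSer_eq` : conversely the expansion of `j(d · g z)` is `j(t^{M d})` only if
  `d ∣ g 1 0`.
-/

set_option autoImplicit false

noncomputable section

namespace Fermat.Agent.GJ.HN

open ModularCurve HahnSeries Fermat.Agent.S28 Fermat.Agent.S28.CuspExp Fermat.Agent.S24_helper62
open scoped MatrixGroups

variable {K : Type*} [Field K]

/-- `t ↦ c t` commutes with `q ↦ q^n` up to `c ↦ c^n` -/
theorem scaleHom_qExpand (c : Kˣ) (n : ℕ) [NeZero n] (x : LaurentSeries K) :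
    scaleHom K c (qExpand K n x) = qExpand K n (scaleHom K (c ^ n) x) := by
  ext m
  rw [scaleHom_coeff]
  by_cases hm : (n : ℤ) ∣ m
  · obtain ⟨r, rfl⟩ := hm
    rw [qExpand_coeff_mul, qExpand_coeff_mul, scaleHom_coeff]
    congr 2
    rw [← zpow_natCast, ← zpow_mul]
  · rw [qExpand_coeff_of_not_dvd n _ hm, qExpand_coeff_of_not_dvd n _ hm, mul_zero]

section OfDvd

variable (ζ : Kˣ) {M d : ℕ} {g : SL(2, ℤ)}

/-- if `d ∣ c` the expansion of `j(d · g z)` in `t = q^{1/M}` is `j(t^{M d})` -/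
theorem hermiteSer_of_dvd [NeZero M] [NeZero d] (hdM : d ∣ M) (H : HermiteData d g)
    (h : (d : ℤ) ∣ g 1 0) :
    (hermiteSer ζ M H : LaurentSeries K) = qExpand K M (qExpand K d (jqModC K)) := by
  have hd : 0 < d := Nat.pos_of_ne_zero (NeZero.ne d)
  have hA := H.A_eq_of_dvd h
  have hB := H.B_eq_zero_of_dvd hd h
  have hAn : H.An = d := by
    have : (H.An : ℤ) = d := by rw [H.coe_An, hA]
    exact_mod_cast this
  have hexpo : H.expo M = M * d := by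
    rw [HermiteData.expo, hAn]
    obtain ⟨e, rfl⟩ := hdM
    rw [Nat.mul_div_cancel_left _ hd]
    ring
  have : NeZero (M * d) := ⟨Nat.mul_ne_zero (NeZero.ne M) (NeZero.ne d)⟩
  rw [hermiteSer, hB, xi_zero, hexpo, jCusp_one, qExpand_qExpand]

/-- conversely: if the expansion of `j(d · g z)` is `j(t^{M d})` then `d ∣ c` -/
theorem dvd_of_hermiteSer_eq [NeZero M] [NeZero d] (hdM : d ∣ M) (H : HermiteData d g)
    (h : (hermiteSer ζ M H : LaurentSeries K) = qExpand K M (qExpand K d (jqModC K))) :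
    (d : ℤ) ∣ g 1 0 := by
  have hd : 0 < d := Nat.pos_of_ne_zero (NeZero.ne d)
  have hM : 0 < M := Nat.pos_of_ne_zero (NeZero.ne M)
  have : NeZero (M * d) := ⟨Nat.mul_ne_zero (NeZero.ne M) (NeZero.ne d)⟩
  have := neZero_expo M hM hdM H
  rw [qExpand_qExpand, ← jCusp_one, hermiteSer] at h
  obtain ⟨hm, -⟩ := jCusp_injective h
  -- `(M/d) An² = M d`
  obtain ⟨e, rfl⟩ := hdM
  rw [HermiteData.expo, Nat.mul_div_cancel_left _ hd] at hm
  have he : 0 < e := Nat.pos_of_mul_pos_left hM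
  have h2 : H.An ^ 2 = d ^ 2 := by
    have : e * H.An ^ 2 = e * d ^ 2 := by rw [hm]; ring
    exact Nat.eq_of_mul_eq_mul_left he this
  have hAn : H.An = d := Nat.pow_left_injective (by norm_num : (2 : ℕ) ≠ 0) h2
  have hA : H.A = d := by rw [← H.coe_An, hAn]
  rw [H.A_eq] at hA
  have : ((Int.gcd (g 1 0) d : ℕ) : ℤ) ∣ g 1 0 := Int.gcd_dvd_left _ _
  rwa [hA] at this

end OfDvd

section Beta

variable (ζ : Kˣ) (N ℓ : ℕ) [NeZero N] [hℓ : Fact ℓ.Prime] {d : ℕ} {g : SL(2, ℤ)}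

/-- the Hermite parameters of `(ℓ d, g)` for `d ∣ N ∣ c`, `ℓ ∤ c` -/
theorem hermite_params_beta (hdN : d ∣ N) (hg : (N : ℤ) ∣ g 1 0) (hℓg : ¬ (ℓ : ℤ) ∣ g 1 0)
    (H : HermiteData (ℓ * d) g) : H.A = d ∧ H.D = ℓ := by
  have hd : 0 < d := Nat.pos_of_dvd_of_pos hdN (Nat.pos_of_ne_zero (NeZero.ne N))
  have hp : Prime (ℓ : ℤ) := Nat.prime_iff_prime_int.mp hℓ.out
  obtain ⟨c', hc'⟩ : (d : ℤ) ∣ g 1 0 := dvd_trans (Int.natCast_dvd_natCast.mpr hdN) hg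
  have hℓc' : ¬ (ℓ : ℤ) ∣ c' := fun h => hℓg (by rw [hc']; exact dvd_mul_of_dvd_right h _)
  have hA : H.A = d := by
    rw [H.A_eq, hc']
    push_cast
    rw [mul_comm (ℓ : ℤ) (d : ℤ), Int.gcd_mul_left]
    have h1 : Int.gcd c' (ℓ : ℤ) = 1 := by
      rw [Int.gcd_comm]
      exact Int.isCoprime_iff_gcd_eq_one.mp ((Prime.coprime_iff_not_dvd hp).mpr hℓc')
    rw [h1]
    simp
  refine ⟨hA, ?_⟩
  have h1 := H.A_mul_D
  rw [hA] at h1
  push_cast at h1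
  have hd' : (d : ℤ) ≠ 0 := by exact_mod_cast hd.ne'
  apply mul_left_cancel₀ hd'
  rw [h1]; ring

/-- **the β-expansion**: for `d ∣ N ∣ c`, `ℓ ∤ c` the expansion of `j(ℓ d · g z)` in
`t = q^{1/(Nℓ)}` is `j((ζ^k t)^{N d})`, `k` any integer representing the slope `e / c` mod `ℓ` -/
theorem hermiteSer_beta (hζ : ζ ^ (N * ℓ) = 1) [NeZero d] (hdN : d ∣ N) (hg : (N : ℤ) ∣ g 1 0)
    (hℓg : ¬ (ℓ : ℤ) ∣ g 1 0) (H : HermiteData (ℓ * d) g) (k : ℤ)
    (hk : ((k : ℤ) : ZMod ℓ) = slope ℓ g) :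
    (hermiteSer ζ (N * ℓ) H : LaurentSeries K) =
      scaleHom K (ζ ^ k) (qExpand K N (qExpand K d (jqModC K))) := by
  have hN : 0 < N := Nat.pos_of_ne_zero (NeZero.ne N)
  have hℓpos : 0 < ℓ := hℓ.out.pos
  have hd : 0 < d := Nat.pos_of_dvd_of_pos hdN hN
  have hℓd : 0 < ℓ * d := Nat.mul_pos hℓpos hd
  obtain ⟨hA, hD⟩ := hermite_params_beta N ℓ hdN hg hℓg H
  have hAn : H.An = d := by
    have : (H.An : ℤ) = d := by rw [H.coe_An, hA]
    exact_mod_cast this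
  have hDn : H.Dn = ℓ := by
    have : (H.Dn : ℤ) = ℓ := by rw [H.coe_Dn hℓd, hD]
    exact_mod_cast this
  have hexpo : H.expo (N * ℓ) = N * d := by
    rw [HermiteData.expo, hAn]
    obtain ⟨e, rfl⟩ := hdN
    have : d * e * ℓ / (ℓ * d) = e := by
      rw [show d * e * ℓ = (ℓ * d) * e by ring, Nat.mul_div_cancel_left _ hℓd]
    rw [this]; ring
  have : NeZero (N * d) := ⟨Nat.mul_ne_zero (NeZero.ne N) (NeZero.ne d)⟩
  rw [hermiteSer, hexpo, hDn, qExpand_qExpand, ← jCusp_one, scaleHom_jCusp, one_mul]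
  congr 1
  -- `ζ^((Nℓ/ℓ) B) = (ζ^k)^(N d)`
  rw [xi, Nat.mul_div_cancel _ hℓpos, ← zpow_natCast (ζ ^ k), ← zpow_mul]
  -- reduce to a congruence mod `N ℓ`
  have key : ((N * ℓ : ℕ) : ℤ) ∣ (N : ℤ) * H.B - k * ((N * d : ℕ) : ℤ) := by
    -- `ℓ ∣ B - k d`
    have h1 : (ℓ : ℤ) ∣ H.B - k * d := by
      rw [← ZMod.intCast_zmod_eq_zero_iff_dvd]
      -- from `c'' B + e'' ℓ = e`, `c'' d = c`
      have h10 := H.h10
      have h11 := H.h11
      rw [hA] at h10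
      rw [hD] at h11
      have hc : ((g 1 0 : ℤ) : ZMod ℓ) ≠ 0 := cast_ne_zero_of_not_dvd hℓg
      have hs := slope_mul_cast (ℓ := ℓ) hℓg
      rw [← hk] at hs
      -- in ZMod ℓ: c'' * d = c, c'' * B = e, k * c = e
      have e1 : ((H.g'' 1 0 : ℤ) : ZMod ℓ) * (d : ZMod ℓ) = ((g 1 0 : ℤ) : ZMod ℓ) := by
        rw [← h10]; push_cast; ring
      have e2 : ((H.g'' 1 0 : ℤ) : ZMod ℓ) * ((H.B : ℤ) : ZMod ℓ) = ((g 1 1 : ℤ) : ZMod ℓ) := by
        rw [← h11]; push_cast; simp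
      have hc'' : ((H.g'' 1 0 : ℤ) : ZMod ℓ) ≠ 0 := by
        intro h0
        rw [h0, zero_mul] at e1
        exact hc e1.symm
      apply mul_left_cancel₀ hc''
      push_cast
      rw [mul_zero, mul_sub, e2, ← hs, ← e1]
      ring
    obtain ⟨r, hr⟩ := h1
    refine ⟨r, ?_⟩
    push_cast
    have : H.B = k * d + ℓ * r := by linarith
    rw [this]; ring
  obtain ⟨r, hr⟩ := key
  have : ((N : ℕ) : ℤ) * H.B = k * ((N * d : ℕ) : ℤ) + ((N * ℓ : ℕ) : ℤ) * r := by linarith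
  rw [this, zpow_add, zpow_mul ζ ((N * ℓ : ℕ) : ℤ), zpow_natCast, hζ, one_zpow, mul_one]

end Beta

end Fermat.Agent.GJ.HN
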