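import Fermat.Agent.GJ.HN.Main
import Fermat.Agent.GJ.HN.Degree
import Fermat.Agent.GJ.Kum.ZetaProd
import Fermat.Agent.GJ.HInputs.OrdNorm

/-!
# GATE-J / J3-HN (helper43), file 8: HN1 + HN2 in the shapes consumed by J3-KUM / J4-KUMTYPE

`ℓ` prime, `ℓ ∤ N`, `F_N = modularFunctionFieldBar N ⊆ ℚ̄((q))`.

* `coe_heckeNormF`  : `Norm_{F_{Nℓ}/F_N}(β u) = heckeNorm ℓ u` (helper44's `Kum.heckeNorm`) in `ℚ̄((q))`;
* `hnMem`           : `u ∈ F_N → heckeNorm ℓ u ∈ F_N`                     (= `HNMem N ℓ` of board 1279);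
* `hnDiv`           : `p ∣ div u`, `x = heckeNorm ℓ u` `⇒ p ∣ div x`       (= `HNDiv N p ℓ` of board 1279,
  with `DivDvd N p u` unfolded to `∀ P, (p : ℤ) ∣ P.ord u`);
* `exists_heckeNorm`: for `u : F_N`, `u ≠ 0`, `p ∣ div u` there is `x : F_N`, `x ≠ 0`,
  `p ∣ div x`, with `x = heckeNorm ℓ u` as series.
-/

set_option autoImplicit false
set_option linter.style.haveILetI false

noncomputable section

namespace Fermat.Agent.GJ.HN

open ModularCurve HahnSeries Fermat.Agent.S28 Fermat.Agent.S24 AlgebraicCurve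
open Fermat.Agent.GJ

section

variable (N ℓ : ℕ) [NeZero N] [hℓ : Fact ℓ.Prime] (hℓN : ¬ ℓ ∣ N)

include hℓN

theorem finiteAlong_alphaH : FiniteAlong Kbar (alphaH N ℓ) :=
  finiteDimensional_alphaB hℓ.out hℓN

omit hℓN in
theorem heckeNormF_eq_normAlong (u : FN N) :
    heckeNormF N ℓ u =
      HInputs.normAlong (heckeAlphaBar Kbar N ℓ) (heckeBetaBar Kbar N ℓ u) := rfl

/-- **HN1**: the norm of `β u` is the Hecke norm series of `u` -/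
theorem coe_heckeNormF (u : FN N) :
    ((heckeNormF N ℓ u : FN N) : LaurentSeries Kbar) =
      Kum.heckeNorm ℓ (u : LaurentSeries Kbar) := by
  apply qExpand_injective ℓ
  rw [qExpand_heckeNormF N ℓ hℓN (finiteAlong_alphaH N ℓ hℓN) (zetaL_isPrimitiveRoot N ℓ) u,
    Kum.qExpand_heckeNorm_eq_prod ℓ (zetaL N ℓ)
      (IsPrimitiveRoot.coe_units_iff.mpr (zetaL_isPrimitiveRoot N ℓ))]

theorem heckeNormF_ne_zero {u : FN N} (hu : u ≠ 0) : heckeNormF N ℓ u ≠ 0 := by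
  intro h
  have h1 := coe_heckeNormF N ℓ hℓN u
  rw [h] at h1
  have h2 : Kum.heckeNorm ℓ (u : LaurentSeries Kbar) ≠ 0 :=
    Kum.heckeNorm_ne_zero_of_isPrimitiveRoot ℓ (zetaL N ℓ)
      (IsPrimitiveRoot.coe_units_iff.mpr (zetaL_isPrimitiveRoot N ℓ))
      (fun h0 => hu (Subtype.ext h0))
  exact h2 h1.symm

end

/-! ### consumer shapes (explicit `[NeZero ℓ]`, `ℓ.Prime` as a hypothesis) -/

section Shapes

variable (N ℓ : ℕ) [NeZero N] [NeZero ℓ] (hℓ : ℓ.Prime) (hℓN : ¬ ℓ ∣ N)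

include hℓ hℓN

/-- `HNMem N ℓ` -/
theorem hnMem (u : LaurentSeries Kbar) (hu : u ∈ modularFunctionFieldBar N) :
    Kum.heckeNorm ℓ u ∈ modularFunctionFieldBar N := by
  haveI : Fact ℓ.Prime := ⟨hℓ⟩
  have h := coe_heckeNormF N ℓ hℓN ⟨u, hu⟩
  have h2 : Kum.heckeNorm ℓ u = ((heckeNormF N ℓ ⟨u, hu⟩ : FN N) : LaurentSeries Kbar) := by
    rw [h]
  rw [h2]
  exact (heckeNormF N ℓ ⟨u, hu⟩).2

/-- for `u : F_N` the element of `F_N` with series `heckeNorm ℓ u` -/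
theorem exists_eq_heckeNorm (u : FN N) :
    ∃ x : FN N, (x : LaurentSeries Kbar) = Kum.heckeNorm ℓ (u : LaurentSeries Kbar) ∧
      x = HInputs.normAlong (heckeAlphaBar Kbar N ℓ) (heckeBetaBar Kbar N ℓ u) ∧
      (u ≠ 0 → x ≠ 0) := by
  haveI : Fact ℓ.Prime := ⟨hℓ⟩
  exact ⟨heckeNormF N ℓ u, coe_heckeNormF N ℓ hℓN u, rfl, fun hu => heckeNormF_ne_zero N ℓ hℓN hu⟩

/-- `HNDiv N p ℓ` -/
theorem hnDiv (p : ℕ) (u x : FN N) (_hu : u ≠ 0)
    (hx : (x : LaurentSeries Kbar) = Kum.heckeNorm ℓ (u : LaurentSeries Kbar))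
    (hdiv : ∀ P : Place Kbar (FN N), (p : ℤ) ∣ P.ord u) :
    ∀ P : Place Kbar (FN N), (p : ℤ) ∣ P.ord x := by
  haveI : Fact ℓ.Prime := ⟨hℓ⟩
  have hx' : x = heckeNormF N ℓ u := by
    apply Subtype.ext
    rw [hx, coe_heckeNormF N ℓ hℓN u]
  rw [hx', heckeNormF_eq_normAlong]
  intro P
  exact HInputs.dvd_ord_norm_beta N ℓ (p : ℤ) u hdiv P

/-- HN1 + HN2 packaged: the Hecke norm of a nonzero `p`-divisible function is again one -/
theorem exists_heckeNorm (p : ℕ) (u : FN N) (hu : u ≠ 0)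
    (hdiv : ∀ P : Place Kbar (FN N), (p : ℤ) ∣ P.ord u) :
    ∃ x : FN N, x ≠ 0 ∧ (∀ P : Place Kbar (FN N), (p : ℤ) ∣ P.ord x) ∧
      (x : LaurentSeries Kbar) = Kum.heckeNorm ℓ (u : LaurentSeries Kbar) := by
  obtain ⟨x, hx, -, hne⟩ := exists_eq_heckeNorm N ℓ hℓ hℓN u
  exact ⟨x, hne hu, hnDiv N ℓ hℓ hℓN p u x hu hx hdiv, hx⟩

end Shapes

end Fermat.Agent.GJ.HN
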