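import Fermat.Agent.GJ.HN.Main

/-!
# GATE-J / J3-HN (helper43), file 7: the divisor of the Hecke norm

`div (Norm_{F_{Nℓ}/F_N}(β u)) = α_* β^* (div u) = heckeDivBar (div u)` — the prelude's Hecke
correspondence on divisors — given the prelude's norm formula for `α` (J-HINPUTS).
In particular `p ∣ div u ⇒ p ∣ div (heckeNormF u)`.
-/

set_option autoImplicit false
set_option linter.style.haveILetI false

noncomputable section

namespace Fermat.Agent.GJ.HN

open ModularCurve Fermat.Agent.S24 AlgebraicCurve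

variable (N ℓ : ℕ) [NeZero N] [hℓ : Fact ℓ.Prime]

/-- **HN2**: the divisor of the Hecke norm is the Hecke correspondence of the divisor -/
theorem heckeDivBar_eq_ord_heckeNormF
    (hα : HeckeAlphaBarIntegral Kbar N ℓ) (hβ : HeckeBetaBarIntegral Kbar N ℓ)
    [HasPrincipalDivisors Kbar (FN (N * ℓ))]
    (hfin : FiniteAlong Kbar (alphaH N ℓ)) (hNF : NormFormulaAlong Kbar (alphaH N ℓ) hfin)
    (u : FN N) (hu : u ≠ 0) (D : Divisor Kbar (FN N)) (hD : ∀ P, D P = P.ord u)
    (P : Place Kbar (FN N)) :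
    heckeDivBar hα hβ D P = P.ord (heckeNormF N ℓ u) := by
  -- the pull-back along `β` is the divisor of `β u`
  have h1 : ∀ w : Place Kbar (FN (N * ℓ)),
      Divisor.pullbackAlong (betaH N ℓ) hβ D w = w.ord (betaH N ℓ u) := by
    intro w
    letI := algebraAlong (betaH N ℓ)
    haveI := isScalarTower_along (betaH N ℓ)
    haveI := isIntegral_along (betaH N ℓ) hβ
    exact Divisor.pullback_apply_eq_ord hD w
  have hβu : betaH N ℓ u ≠ 0 := fun h => hu ((betaH N ℓ).toRingHom.injective (by simpa using h))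
  -- the norm formula along `α`
  letI := algebraAlong (alphaH N ℓ)
  haveI := isScalarTower_along (alphaH N ℓ)
  haveI := isIntegral_along (alphaH N ℓ) hα
  haveI : Module.Finite (FN N) (FN (N * ℓ)) := hfin
  exact hNF (betaH N ℓ u) hβu _ h1 P

omit [NeZero N] hℓ in
/-- an additive endomorphism of divisors preserves divisibility by `p` -/
theorem dvd_apply_of_forall_dvd {K F : Type*} [Field K] [Field F] [Algebra K F]
    (T : Divisor K F →+ Divisor K F) (p : ℤ) (D : Divisor K F) (hD : ∀ Q, p ∣ D Q)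
    (P : Place K F) : p ∣ T D P := by
  have hDp : D = p • Finsupp.mapRange (fun a : ℤ => a / p) (by simp) D := by
    ext Q
    rw [Finsupp.smul_apply, Finsupp.mapRange_apply, smul_eq_mul, mul_comm]
    exact (Int.ediv_mul_cancel (hD Q)).symm
  rw [hDp, map_zsmul, Finsupp.smul_apply, smul_eq_mul]
  exact dvd_mul_right _ _

/-- `p ∣ div u ⇒ p ∣ div (heckeNormF u)` -/
theorem dvd_ord_heckeNormF
    (hα : HeckeAlphaBarIntegral Kbar N ℓ) (hβ : HeckeBetaBarIntegral Kbar N ℓ)
    [HasPrincipalDivisors Kbar (FN (N * ℓ))] [HasPrincipalDivisors Kbar (FN N)]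
    (hfin : FiniteAlong Kbar (alphaH N ℓ)) (hNF : NormFormulaAlong Kbar (alphaH N ℓ) hfin)
    (p : ℤ) (u : FN N) (hu : u ≠ 0) (hp : ∀ P : Place Kbar (FN N), p ∣ P.ord u)
    (P : Place Kbar (FN N)) : p ∣ P.ord (heckeNormF N ℓ u) := by
  obtain ⟨D, hD, -⟩ := HasPrincipalDivisors.exists_divisor (K := Kbar) (F := FN N) u hu
  rw [← heckeDivBar_eq_ord_heckeNormF N ℓ hα hβ hfin hNF u hu D hD P]
  exact dvd_apply_of_forall_dvd _ p D (fun Q => by rw [hD]; exact hp Q) P

end Fermat.Agent.GJ.HN
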