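import Mathlib
import Fermat.Agent.GJ.HN.Bridge
import Fermat.Agent.GJ.HN.NormMer
import Fermat.Agent.GJ.J2.Eig

set_option autoImplicit false
set_option linter.style.haveILetI false

/-!
# GATE-J / J2 ↔ J3 : the input `HN1Q` of `EigAsm.eig_of_Q`

`EigAsm.HN1Q N` asks, for every prime `ℓ ∤ N` and every `u ≠ 0` in `F_N = ℚ̄(X₀(N))`, for an element
`Tu ∈ F_N` whose `q`-expansion is the series Hecke norm of `u` and whose realisation on `ℍ` is the
analytic Hecke norm of the realisation of `u`.  Both halves hold for the SAME element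
`Tu = Norm_{F_{Nℓ}/F_N}(β u)`:

* `q`-series half: `coe_heckeNormF` (`GJ/HN/Bridge.lean`);
* `Mer` half: `realize_norm_betaB` (`GJ/HN/NormMer.lean`), after identifying the two parallel
  developments of "precomposition with `GL(2, ℝ)⁺` on `Mer`" (`HeckeMer.compMGL` and
  `MerGL.compPM`).
-/

noncomputable section

namespace Fermat.Agent.GJ.HN

open UpperHalfPlane ModularCurve AlgebraicCurve Fermat.Agent.S24 Fermat.Agent.S24_helper82
open Fermat.Agent.GJ.MerGL Fermat.Agent.GJ.HeckeMult Fermat.Agent.GJ.HeckeMer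
open P2MW.S_ModularForm_heckeT_slash_eq_self_of_mem_Gamma0.ModularForm.HeckeSlashInvariance
open scoped MatrixGroups Manifold OnePoint

/-! ### `compMGL = compPM` -/

theorem compGL_eq_compP (α : GL (Fin 2) ℝ) (hα : 0 < α.det.val) (f : Hol) :
    compGL α hα f = compP (⟨α, hα⟩ : P) f := rfl

/-- the two versions of "precomposition with `α ∈ GL(2, ℝ)⁺`" on `Mer` agree -/
theorem compMGL_eq_compPM (α : GL (Fin 2) ℝ) (hα : 0 < α.det.val) (m : Mer) :
    compMGL α hα m = compPM (⟨α, hα⟩ : P) m := by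
  by_cases hm : m = 0
  · subst hm; simp
  obtain ⟨a, b, ha, hb, rfl⟩ := exists_div_eq m hm
  rw [compMGL_div, compPM_div, compGL_eq_compP, compGL_eq_compP]

/-- helper86's analytic Hecke norm is helper97's Hecke product -/
theorem heckeNormT_eq_heckeProd (ℓ : ℕ) [Fact ℓ.Prime] (m : Mer) :
    heckeNormT ℓ m = heckeProd ℓ m := by
  rw [heckeNormT_apply, heckeProd_def]
  refine Finset.prod_congr rfl fun x _ => ?_
  rw [compMGL_eq_compPM]
  rfl

/-! ### `HN1Q` -/

/-- the realisation of the algebraic Hecke norm is the analytic Hecke norm -/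
theorem realize_heckeNormF {N ℓ : ℕ} [NeZero N] [Fact ℓ.Prime] (hℓN : ¬ ℓ ∣ N) (u : FN N) :
    realize N (heckeNormF N ℓ u) = heckeNormT ℓ (realize N u) := by
  rw [heckeNormT_eq_heckeProd]
  exact realize_norm_betaB hℓN u

/-- **(HN1Q)**, the Hecke-norm input of `EigAsm.eig_of_Q`. -/
theorem hn1Q (N : ℕ) [NeZero N] : Fermat.Agent.GJ.EigAsm.HN1Q N := by
  intro ℓ _ hℓN u _
  exact ⟨heckeNormF N ℓ u, coe_heckeNormF N ℓ hℓN u, realize_heckeNormF hℓN u⟩

end Fermat.Agent.GJ.HN
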