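import Fermat.Agent.GJ.HN.Norm

/-!
# GATE-J / J3-HN (helper43), file 6: the Hecke norm in `q^{1/ℓ}`-expansions

`ℓ` prime, `ℓ ∤ N`.  For `u ∈ F_N = ℚ̄(X₀(N)) ⊆ ℚ̄((q))` put `v = Norm_{F_{Nℓ}/α(F_N)}(β u) ∈ F_N`
(`α` = inclusion, `β` = `q ↦ q^ℓ`; the norm is `Algebra.norm` for the prelude's `algebraAlong α`).
Then, as series in `s = q^{1/ℓ}`,

  `v(s^ℓ) = u(s^{ℓ²}) * ∏_{b < ℓ} u(z^b s)`      (`z` any primitive `ℓ`-th root of unity),

i.e. `v = (V_ℓ u) * (N_ℓ u)`, `V_ℓ u = u(q^ℓ)`, `N_ℓ u = ∏_b u(z^b q^{1/ℓ})`: the Hecke norm of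
J3-KUM (board 1173).
-/

set_option autoImplicit false
set_option linter.style.haveILetI false

noncomputable section

namespace Fermat.Agent.GJ.HN

open ModularCurve HahnSeries Fermat.Agent.S28 Fermat.Agent.S28.CuspExp Fermat.Agent.S24
  Fermat.Agent.S24_helper62 Fermat.Agent.S28.Assemble AlgebraicCurve Polynomial
open scoped MatrixGroups

variable (N ℓ : ℕ) [NeZero N] [hℓ : Fact ℓ.Prime] (hℓN : ¬ ℓ ∣ N)

/-- the Hecke norm of `u`: `Norm_{F_{Nℓ}/F_N}(β u)` -/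
def heckeNormF (u : FN N) : FN N := normA N ℓ (betaH N ℓ u)

/-- the primitive `ℓ`-th root of unity `ζ_M^N` -/
def zetaL : Kbarˣ := zetaBar (N * ℓ) ^ N

theorem zetaL_isPrimitiveRoot : IsPrimitiveRoot (zetaL N ℓ) ℓ := by
  have h := zetaBar_isPrimitiveRoot (N * ℓ)
  exact h.pow (Nat.pos_of_ne_zero (NeZero.ne (N * ℓ))) rfl

include hℓN

/-- **HN1, `t`-form** (`t = q^{1/(Nℓ)}`) -/
theorem expA_heckeNormF (hfin : FiniteAlong Kbar (alphaH N ℓ)) (u : FN N) :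
    expA N ℓ (heckeNormF N ℓ u) =
      expB N ℓ u * ∏ b : ZMod ℓ, scaleHom Kbar (zetaBar (N * ℓ) ^ (b.val : ℤ)) (expN N u) := by
  rw [heckeNormF, expA_normA N ℓ hfin, prod_fib N ℓ hℓN]
  congr 1
  · rw [← sigB_apply, sigB_of_mem_level N ℓ (q := Degree.i0 (N * ℓ))
      ((rep_mem_iff (N * ℓ) (Degree.i0 (N * ℓ))).mpr rfl)]
  · apply Finset.prod_congr rfl
    intro b _
    obtain ⟨h1, h2, h3⟩ := rep_qB N ℓ hℓN b
    rw [← sigB_apply, sigB_of_mem N ℓ h1 h2 (b.val : ℤ) (by rw [h3]; simp), AlgHom.comp_apply,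
      scaleAlgHom_apply]

/-- **HN1, `s`-form** (`s = q^{1/ℓ}`), product over `ZMod ℓ`, `z = ζ_M^N` -/
theorem qExpand_heckeNormF_zmod (hfin : FiniteAlong Kbar (alphaH N ℓ)) (u : FN N) :
    qExpand Kbar ℓ ((heckeNormF N ℓ u : FN N) : LaurentSeries Kbar) =
      qExpand Kbar ℓ (qExpand Kbar ℓ (u : LaurentSeries Kbar)) *
        ∏ b : ZMod ℓ, scaleHom Kbar (zetaL N ℓ ^ b.val) (u : LaurentSeries Kbar) := by
  have h := expA_heckeNormF N ℓ hℓN hfin u
  rw [expA_apply, expB_apply, ← qExpand_qExpand ℓ N, ← qExpand_qExpand ℓ N] at h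
  apply qExpand_injective N
  rw [h, map_mul, map_prod]
  congr 1
  apply Finset.prod_congr rfl
  intro b _
  rw [expN_apply, scaleHom_qExpand, zetaL, ← zpow_natCast (zetaBar (N * ℓ) ^ N),
    ← zpow_natCast (zetaBar (N * ℓ)) N, ← zpow_mul, ← zpow_natCast (zetaBar (N * ℓ) ^ (b.val : ℤ)),
    ← zpow_mul, mul_comm ((b.val : ℕ) : ℤ) (N : ℤ)]

omit hℓN [NeZero N] in
/-- reindexing a product over the powers of a primitive root -/
theorem prod_primitiveRoot_eq {A : Type*} [CommMonoid A] {z z' : Kbarˣ}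
    (hz : IsPrimitiveRoot z ℓ) (hz' : IsPrimitiveRoot z' ℓ) (F : Kbarˣ → A) :
    ∏ b ∈ Finset.range ℓ, F (z' ^ b) = ∏ b : ZMod ℓ, F (z ^ b.val) := by
  classical
  have hℓpos : 0 < ℓ := hℓ.out.pos
  -- both sides are the product of `F` over the set of all `ℓ`-th roots of unity
  have key : ∀ w : Kbarˣ, IsPrimitiveRoot w ℓ →
      (Finset.range ℓ).image (fun b => w ^ b) = (Finset.range ℓ).image (fun b => z ^ b) := by
    intro w hw
    apply Finset.eq_of_subset_of_card_le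
    · intro x hx
      rw [Finset.mem_image] at hx ⊢
      obtain ⟨b, -, rfl⟩ := hx
      have hmem : w ^ b ∈ Subgroup.zpowers z := by
        rw [hz.zpowers_eq, mem_rootsOfUnity, ← pow_mul, mul_comm, pow_mul, hw.pow_eq_one, one_pow]
      obtain ⟨i, hi, hzi⟩ := hz.eq_pow_of_mem_rootsOfUnity
        (by rwa [hz.zpowers_eq] at hmem : w ^ b ∈ rootsOfUnity ℓ Kbar)
      exact ⟨i, Finset.mem_range.mpr hi, hzi⟩
    · rw [Finset.card_image_of_injOn, Finset.card_image_of_injOn]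
      · intro a ha b hb hab
        exact hw.pow_inj (Finset.mem_range.mp ha) (Finset.mem_range.mp hb) hab
      · intro a ha b hb hab
        exact hz.pow_inj (Finset.mem_range.mp ha) (Finset.mem_range.mp hb) hab
  have h1 : ∀ w : Kbarˣ, IsPrimitiveRoot w ℓ →
      ∏ b ∈ Finset.range ℓ, F (w ^ b) = ∏ x ∈ (Finset.range ℓ).image (fun b => w ^ b), F x := by
    intro w hw
    rw [Finset.prod_image]
    intro a ha b hb hab
    exact hw.pow_inj (Finset.mem_range.mp ha) (Finset.mem_range.mp hb) hab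
  rw [h1 z' hz', key z' hz', ← h1 z hz]
  -- `range ℓ` versus `ZMod ℓ`
  symm
  refine Finset.prod_bij (fun b _ => b.val) (fun b _ => Finset.mem_range.mpr (ZMod.val_lt b))
    (fun a _ b _ h => ZMod.val_injective ℓ h) (fun n hn => ?_) (fun b _ => rfl)
  exact ⟨(n : ZMod ℓ), Finset.mem_univ _, ZMod.val_natCast_of_lt (Finset.mem_range.mp hn)⟩

/-- **HN1**: for every primitive `ℓ`-th root of unity `z`,
`v(s^ℓ) = u(s^{ℓ²}) * ∏_{b<ℓ} u(z^b s)` for `v = Norm_{F_{Nℓ}/F_N}(β u)` -/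
theorem qExpand_heckeNormF (hfin : FiniteAlong Kbar (alphaH N ℓ)) {z : Kbarˣ}
    (hz : IsPrimitiveRoot z ℓ) (u : FN N) :
    qExpand Kbar ℓ ((heckeNormF N ℓ u : FN N) : LaurentSeries Kbar) =
      qExpand Kbar ℓ (qExpand Kbar ℓ (u : LaurentSeries Kbar)) *
        ∏ b ∈ Finset.range ℓ, scaleHom Kbar (z ^ b) (u : LaurentSeries Kbar) := by
  rw [qExpand_heckeNormF_zmod N ℓ hℓN hfin u,
    prod_primitiveRoot_eq ℓ (zetaL_isPrimitiveRoot N ℓ) hz
      (fun c => scaleHom Kbar c (u : LaurentSeries Kbar))]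

end Fermat.Agent.GJ.HN
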