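import Fermat.Agent.S24_helper62.CuspEmb
import Fermat.Agent.GJ.HN.Hermite
import Fermat.Prelude.Def_ModularCurve_HeckeOperator

/-!
# GATE-J / J3-HN (helper43), file 3: the cusp embeddings of `F_{Nℓ}` over `F_N`

`ℓ` prime, `ℓ ∤ N`, `M = N ℓ`, `α, β : F_N → F_M` the two degeneracy maps of the prelude
(`heckeAlphaBar` = inclusion, `heckeBetaBar` = `q ↦ q^ℓ`), `σ_q = cuspSigma M q` the `ψ(M)` cusp
embeddings of T24 (`S24_helper62/CuspEmb.lean`), `t = q^{1/M}`.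

* `sigA_eq_iff`  : `σ_q ∘ α = σ_1 ∘ α` iff `rep q ∈ Γ₀(N)`;
* `sigB_i0`      : `σ_1 (β u) = u(t^{M ℓ})`;
* `sigB_of_mem`  : for `rep q ∈ Γ₀(N)`, `ℓ ∤ c`: `σ_q (β u) = u((ζ^k t)^N)`, `k ≡ e / c mod ℓ`.
-/

set_option autoImplicit false

noncomputable section

namespace Fermat.Agent.GJ.HN

open ModularCurve HahnSeries Fermat.Agent.S28 Fermat.Agent.S28.CuspExp Fermat.Agent.S24
  Fermat.Agent.S24_helper62 Fermat.Agent.S28.Assemble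
open scoped MatrixGroups

variable (N ℓ : ℕ) [NeZero N] [hℓ : Fact ℓ.Prime]

scoped instance neZero_of_fact_prime : NeZero ℓ := ⟨hℓ.out.ne_zero⟩

/-- the level `N ℓ` is nonzero -/
scoped instance neZero_level : NeZero (N * ℓ) := ⟨Nat.mul_ne_zero (NeZero.ne N) (NeZero.ne ℓ)⟩

/-- `α = heckeAlphaBar` (inclusion `F_N ⊆ F_{Nℓ}`) -/
abbrev alphaH : FN N →ₐ[Kbar] FN (N * ℓ) := heckeAlphaBar Kbar N ℓ

/-- `β = heckeBetaBar` (`q ↦ q^ℓ`) -/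
abbrev betaH : FN N →ₐ[Kbar] FN (N * ℓ) := heckeBetaBar Kbar N ℓ

theorem alphaH_jdF (d : ℕ) [NeZero d] (hd : d ∣ N) :
    alphaH N ℓ (jdF N d hd) = jdF (N * ℓ) d (hd.trans (dvd_mul_right N ℓ)) :=
  Subtype.ext rfl

omit [NeZero N] hℓ in
theorem dvd_level_of_dvd {d : ℕ} (hd : d ∣ N) : ℓ * d ∣ N * ℓ := by
  rw [mul_comm N ℓ]; exact mul_dvd_mul_left ℓ hd

scoped instance neZero_mul_of_dvd (d : ℕ) [NeZero d] : NeZero (ℓ * d) :=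
  ⟨Nat.mul_ne_zero (NeZero.ne ℓ) (NeZero.ne d)⟩

theorem betaH_jdF (d : ℕ) [NeZero d] (hd : d ∣ N) :
    betaH N ℓ (jdF N d hd) = jdF (N * ℓ) (ℓ * d) (dvd_level_of_dvd N ℓ hd) := by
  apply Subtype.ext
  show qExpand Kbar ℓ (jdSeries d) = jdSeries (ℓ * d)
  rw [Degree.jdSeries_eq, Degree.jdSeries_eq, qExpand_qExpand]

/-- `σ_q ∘ α` -/
def sigA (q : I0 (N * ℓ)) : FN N →ₐ[Kbar] LaurentSeries Kbar :=
  (cuspSigma (N * ℓ) q).comp (alphaH N ℓ)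

/-- `σ_q ∘ β` -/
def sigB (q : I0 (N * ℓ)) : FN N →ₐ[Kbar] LaurentSeries Kbar :=
  (cuspSigma (N * ℓ) q).comp (betaH N ℓ)

theorem sigA_apply (q : I0 (N * ℓ)) (u : FN N) :
    sigA N ℓ q u = cuspSigma (N * ℓ) q (alphaH N ℓ u) := rfl

theorem sigB_apply (q : I0 (N * ℓ)) (u : FN N) :
    sigB N ℓ q u = cuspSigma (N * ℓ) q (betaH N ℓ u) := rfl

theorem sigA_jdF (q : I0 (N * ℓ)) (d : ℕ) [NeZero d] (hd : d ∣ N) :
    sigA N ℓ q (jdF N d hd) = hermiteSer (zetaBar (N * ℓ)) (N * ℓ)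
      (herm (N * ℓ) q ⟨d, hd.trans (dvd_mul_right N ℓ)⟩) := by
  rw [sigA_apply, alphaH_jdF, cuspSigma_jdF]

theorem sigB_jdF (q : I0 (N * ℓ)) (d : ℕ) [NeZero d] (hd : d ∣ N) :
    sigB N ℓ q (jdF N d hd) = hermiteSer (zetaBar (N * ℓ)) (N * ℓ)
      (herm (N * ℓ) q ⟨ℓ * d, dvd_level_of_dvd N ℓ hd⟩) := by
  rw [sigB_apply, betaH_jdF, cuspSigma_jdF]

/-- the `q^{1/M}`-expansion `u ↦ u(t^M)` of `F_N` -/
def expA : FN N →ₐ[Kbar] LaurentSeries Kbar :=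
  (qExpandAlgHomC Kbar (N * ℓ)).comp (modularFunctionFieldBar N).val

theorem expA_apply (u : FN N) : expA N ℓ u = qExpand Kbar (N * ℓ) (u : LaurentSeries Kbar) := rfl

theorem expA_jdF (d : ℕ) [NeZero d] (hd : d ∣ N) :
    expA N ℓ (jdF N d hd) = qExpand Kbar (N * ℓ) (qExpand Kbar d (jqModC Kbar)) := by
  rw [expA_apply]
  show qExpand Kbar (N * ℓ) (jdSeries d) = _
  rw [Degree.jdSeries_eq]

/-- `rep q ∈ Γ₀(N)` implies `σ_q ∘ α = (u ↦ u(t^M))` -/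
theorem sigA_eq_of_mem {q : I0 (N * ℓ)} (hq : rep (N * ℓ) q ∈ CongruenceSubgroup.Gamma0 N) :
    sigA N ℓ q = expA N ℓ := by
  apply algHom_FN_ext
  intro d _ hd
  rw [sigA_jdF, expA_jdF]
  exact hermiteSer_of_dvd _ (hd.trans (dvd_mul_right N ℓ)) _
    (dvd_lower_left_of_mem_Gamma0 hd hq)

/-- `σ_q ∘ α = (u ↦ u(t^M))` implies `rep q ∈ Γ₀(N)` -/
theorem mem_of_sigA_eq {q : I0 (N * ℓ)} (h : sigA N ℓ q = expA N ℓ) :
    rep (N * ℓ) q ∈ CongruenceSubgroup.Gamma0 N := by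
  have h1 : sigA N ℓ q (jdF N N dvd_rfl) = expA N ℓ (jdF N N dvd_rfl) := by rw [h]
  rw [sigA_jdF, expA_jdF] at h1
  rw [mem_Gamma0_iff_dvd]
  exact dvd_of_hermiteSer_eq _ (dvd_mul_right N ℓ) _ h1

theorem sigA_eq_iff (q : I0 (N * ℓ)) :
    sigA N ℓ q = expA N ℓ ↔ rep (N * ℓ) q ∈ CongruenceSubgroup.Gamma0 N :=
  ⟨mem_of_sigA_eq N ℓ, sigA_eq_of_mem N ℓ⟩

/-! ### the `β`-side -/

/-- the `q^{1/ℓ}`-expansion `u ↦ u(t^N)` of `F_N`, `t = q^{1/M}` -/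
def expN : FN N →ₐ[Kbar] LaurentSeries Kbar :=
  (qExpandAlgHomC Kbar N).comp (modularFunctionFieldBar N).val

theorem expN_apply (u : FN N) : expN N u = qExpand Kbar N (u : LaurentSeries Kbar) := rfl

theorem expN_jdF (d : ℕ) [NeZero d] (hd : d ∣ N) :
    expN N (jdF N d hd) = qExpand Kbar N (qExpand Kbar d (jqModC Kbar)) := by
  rw [expN_apply]
  show qExpand Kbar N (jdSeries d) = _
  rw [Degree.jdSeries_eq]

/-- `u ↦ u(t^{M ℓ})` -/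
def expB : FN N →ₐ[Kbar] LaurentSeries Kbar :=
  (qExpandAlgHomC Kbar (N * ℓ)).comp ((qExpandAlgHomC Kbar ℓ).comp (modularFunctionFieldBar N).val)

theorem expB_apply (u : FN N) :
    expB N ℓ u = qExpand Kbar (N * ℓ) (qExpand Kbar ℓ (u : LaurentSeries Kbar)) := rfl

theorem expB_jdF (d : ℕ) [NeZero d] (hd : d ∣ N) :
    expB N ℓ (jdF N d hd) = qExpand Kbar (N * ℓ) (qExpand Kbar (ℓ * d) (jqModC Kbar)) := by
  rw [expB_apply]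
  show qExpand Kbar (N * ℓ) (qExpand Kbar ℓ (jdSeries d)) = _
  rw [Degree.jdSeries_eq, qExpand_qExpand d ℓ]

/-- on the identity coset: `σ_1 (β u) = u(t^{M ℓ})` -/
theorem sigB_of_mem_level {q : I0 (N * ℓ)}
    (hq : rep (N * ℓ) q ∈ CongruenceSubgroup.Gamma0 (N * ℓ)) : sigB N ℓ q = expB N ℓ := by
  apply algHom_FN_ext
  intro d _ hd
  rw [sigB_jdF, expB_jdF]
  exact hermiteSer_of_dvd _ (dvd_level_of_dvd N ℓ hd) _
    (dvd_lower_left_of_mem_Gamma0 (dvd_level_of_dvd N ℓ hd) hq)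

/-- on the other cosets of the fibre: `σ_q (β u) = u((ζ^k t)^N)`, `k ≡ e / c mod ℓ` -/
theorem sigB_of_mem {q : I0 (N * ℓ)} (hq : rep (N * ℓ) q ∈ CongruenceSubgroup.Gamma0 N)
    (hℓq : ¬ (ℓ : ℤ) ∣ (rep (N * ℓ) q) 1 0) (k : ℤ)
    (hk : ((k : ℤ) : ZMod ℓ) = slope ℓ (rep (N * ℓ) q)) :
    sigB N ℓ q = (scaleAlgHom (zetaBar (N * ℓ) ^ k)).comp (expN N) := by
  apply algHom_FN_ext
  intro d _ hd
  rw [sigB_jdF, AlgHom.comp_apply, expN_jdF, scaleAlgHom_apply]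
  exact hermiteSer_beta _ N ℓ (zetaBar_pow (N * ℓ)) hd ((mem_Gamma0_iff_dvd N _).mp hq) hℓq _ k hk

end Fermat.Agent.GJ.HN
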