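import Fermat.Agent.GJ.HN.Fibre

/-!
# GATE-J / J3-HN (helper43), file 4: the fibre `{q : rep q ∈ Γ₀(N)}` of `I0 (N ℓ) → I0 N`

It consists of the identity coset and of the `ℓ` cosets `qB b`, `b : ZMod ℓ`, of slope `b`.
-/

set_option autoImplicit false

noncomputable section

namespace Fermat.Agent.GJ.HN

open ModularCurve Fermat.Agent.S28 Fermat.Agent.S28.CuspExp Fermat.Agent.S24
  Fermat.Agent.S24_helper62 Fermat.Agent.S28.Assemble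
open scoped MatrixGroups

variable (N ℓ : ℕ) [NeZero N] [hℓ : Fact ℓ.Prime] (hℓN : ¬ ℓ ∣ N)

open Classical in
/-- the fibre over the identity coset of `I0 N` -/
def fib : Finset (I0 (N * ℓ)) :=
  Finset.univ.filter fun q => rep (N * ℓ) q ∈ CongruenceSubgroup.Gamma0 N

theorem mem_fib {q : I0 (N * ℓ)} :
    q ∈ fib N ℓ ↔ rep (N * ℓ) q ∈ CongruenceSubgroup.Gamma0 N := by
  classical
  rw [fib, Finset.mem_filter]
  simp

/-- the coset of slope `b` -/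
def qB (b : ZMod ℓ) : I0 (N * ℓ) := (((repB N ℓ b)⁻¹ : SL(2, ℤ)) : I0 (N * ℓ))

/-- `rep (mk g⁻¹) = γ * g` with `γ ∈ Γ₀(M)` -/
theorem exists_rep_mk_inv (M : ℕ) [NeZero M] (g : SL(2, ℤ)) :
    ∃ γ : SL(2, ℤ), γ ∈ CongruenceSubgroup.Gamma0 M ∧ rep M ((g⁻¹ : SL(2, ℤ)) : I0 M) = γ * g := by
  obtain ⟨h, hh⟩ := QuotientGroup.mk_out_eq_mul (CongruenceSubgroup.Gamma0 M) (g⁻¹)
  refine ⟨(h : SL(2, ℤ))⁻¹, inv_mem h.2, ?_⟩
  rw [rep, hh, mul_inv_rev, inv_inv]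

theorem eq_of_rep_mul_inv_mem (M : ℕ) [NeZero M] {q q' : I0 M}
    (h : rep M q * (rep M q')⁻¹ ∈ CongruenceSubgroup.Gamma0 M) : q = q' := by
  rw [← QuotientGroup.out_eq' q, ← QuotientGroup.out_eq' q', QuotientGroup.eq]
  rw [rep, rep, inv_inv] at h
  exact h

include hℓN

omit [NeZero N] in
theorem coprime_level : Nat.Coprime N ℓ :=
  ((Nat.Prime.coprime_iff_not_dvd hℓ.out).mpr hℓN).symm

theorem rep_qB (b : ZMod ℓ) : rep (N * ℓ) (qB N ℓ b) ∈ CongruenceSubgroup.Gamma0 N ∧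
    ¬ (ℓ : ℤ) ∣ (rep (N * ℓ) (qB N ℓ b)) 1 0 ∧ slope ℓ (rep (N * ℓ) (qB N ℓ b)) = b := by
  obtain ⟨γ, hγ, hrep⟩ := exists_rep_mk_inv (N * ℓ) (repB N ℓ b)
  rw [qB, hrep]
  obtain ⟨hγN, hγℓ⟩ := (mem_Gamma0_mul_iff N ℓ (coprime_level N ℓ hℓN) γ).mp hγ
  refine ⟨mul_mem hγN (repB_mem_Gamma0 N ℓ b), not_dvd_mul_left hγℓ (not_dvd_repB N ℓ hℓN b), ?_⟩
  rw [slope_mul_left hγℓ (not_dvd_repB N ℓ hℓN b), slope_repB N ℓ hℓN]

theorem qB_mem_fib (b : ZMod ℓ) : qB N ℓ b ∈ fib N ℓ :=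
  (mem_fib N ℓ).mpr (rep_qB N ℓ hℓN b).1

theorem qB_injective : Function.Injective (qB N ℓ) := by
  intro b b' h
  rw [← (rep_qB N ℓ hℓN b).2.2, ← (rep_qB N ℓ hℓN b').2.2, h]

omit hℓN in
theorem i0_mem_fib : Degree.i0 (N * ℓ) ∈ fib N ℓ := by
  rw [mem_fib]
  have h : rep (N * ℓ) (Degree.i0 (N * ℓ)) ∈ CongruenceSubgroup.Gamma0 (N * ℓ) :=
    (rep_mem_iff (N * ℓ) _).mpr rfl
  rw [mem_Gamma0_iff_dvd] at h ⊢
  exact dvd_trans (by push_cast; exact dvd_mul_right _ _) h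

theorem qB_ne_i0 (b : ZMod ℓ) : qB N ℓ b ≠ Degree.i0 (N * ℓ) := by
  intro h
  have h1 : rep (N * ℓ) (qB N ℓ b) ∈ CongruenceSubgroup.Gamma0 (N * ℓ) :=
    (rep_mem_iff (N * ℓ) _).mpr h
  exact (rep_qB N ℓ hℓN b).2.1
    ((mem_Gamma0_mul_iff N ℓ (coprime_level N ℓ hℓN) _).mp h1).2

/-- classification of the fibre -/
theorem eq_i0_or_eq_qB {q : I0 (N * ℓ)} (hq : q ∈ fib N ℓ) :
    q = Degree.i0 (N * ℓ) ∨ q = qB N ℓ (slope ℓ (rep (N * ℓ) q)) := by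
  rw [mem_fib] at hq
  by_cases hdvd : (ℓ : ℤ) ∣ (rep (N * ℓ) q) 1 0
  · left
    exact (rep_mem_iff (N * ℓ) q).mp
      ((mem_Gamma0_mul_iff N ℓ (coprime_level N ℓ hℓN) _).mpr ⟨hq, hdvd⟩)
  · right
    obtain ⟨h1, h2, h3⟩ := rep_qB N ℓ hℓN (slope ℓ (rep (N * ℓ) q))
    apply eq_of_rep_mul_inv_mem
    rw [mem_Gamma0_mul_iff N ℓ (coprime_level N ℓ hℓN)]
    exact ⟨mul_mem hq (inv_mem h1), dvd_mul_inv_lower_left_of_slope_eq hdvd h2 h3.symm⟩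

open Classical in
theorem fib_eq : fib N ℓ = insert (Degree.i0 (N * ℓ)) (Finset.univ.image (qB N ℓ)) := by
  ext q
  rw [Finset.mem_insert, Finset.mem_image]
  constructor
  · intro hq
    rcases eq_i0_or_eq_qB N ℓ hℓN hq with h | h
    · exact Or.inl h
    · exact Or.inr ⟨_, Finset.mem_univ _, h.symm⟩
  · rintro (rfl | ⟨b, -, rfl⟩)
    · exact i0_mem_fib N ℓ
    · exact qB_mem_fib N ℓ hℓN b

/-- products over the fibre -/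
theorem prod_fib {A : Type*} [CommMonoid A] (f : I0 (N * ℓ) → A) :
    ∏ q ∈ fib N ℓ, f q = f (Degree.i0 (N * ℓ)) * ∏ b : ZMod ℓ, f (qB N ℓ b) := by
  classical
  rw [fib_eq N ℓ hℓN, Finset.prod_insert, Finset.prod_image]
  · intro b _ b' _ h
    exact qB_injective N ℓ hℓN h
  · rw [Finset.mem_image]
    rintro ⟨b, -, hb⟩
    exact qB_ne_i0 N ℓ hℓN b hb

end Fermat.Agent.GJ.HN
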