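import Fermat.Agent.GJ.HN.FibreSet

/-!
# GATE-J / J3-HN (helper43), file 5: the norm `F_{Nℓ} → F_N` as a product of cusp expansions

`normA x = Norm_{F_{Nℓ}/α(F_N)} x` (for the algebra structure `algebraAlong α` of the prelude).

* `expA_normA` : `(normA x)(t^M) = ∏_{q ∈ fib} σ_q x`;
* `expA_normA_beta` : `(normA (β u))(t^M) = u(t^{Mℓ}) * ∏_{b : ZMod ℓ} u((ζ^b t)^N)`.
-/

set_option autoImplicit false
set_option linter.style.haveILetI false

noncomputable section

namespace Fermat.Agent.GJ.HN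

open ModularCurve HahnSeries Fermat.Agent.S28 Fermat.Agent.S28.CuspExp Fermat.Agent.S24
  Fermat.Agent.S24_helper62 Fermat.Agent.S28.Assemble AlgebraicCurve Polynomial
open scoped MatrixGroups

variable (N ℓ : ℕ) [NeZero N] [hℓ : Fact ℓ.Prime]

/-- the norm along `α` -/
def normA (x : FN (N * ℓ)) : FN N :=
  letI := algebraAlong (alphaH N ℓ)
  Algebra.norm (FN N) x

theorem alphaH_jF : alphaH N ℓ (jF N) = jF (N * ℓ) := alphaH_jdF N ℓ 1 (one_dvd N)

theorem expA_jF : expA N ℓ (jF N) = qExpand Kbar (N * ℓ) (jqModC Kbar) := by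
  rw [jF, expA_jdF, qExpand_one_apply]

/-- every `ℚ̄`-embedding of `F_M` into an extension `E` of `ℚ̄((t))` with the right value at `j`
is one of the cusp embeddings -/
theorem exists_cuspSigma_eq {E : Type*} [Field E] [Algebra Kbar E]
    (ι : LaurentSeries Kbar →ₐ[Kbar] E) (τ : FN (N * ℓ) →ₐ[Kbar] E)
    (hτ : τ (jF (N * ℓ)) = ι (qExpand Kbar (N * ℓ) (jqModC Kbar))) :
    ∃ q, τ = ι.comp (cuspSigma (N * ℓ) q) := by
  have hinj : Function.Injective fun q => ι.comp (cuspSigma (N * ℓ) q) := by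
    intro q q' h
    apply cuspSigma_injective (N * ℓ)
    apply AlgHom.ext
    intro f
    have := congrArg (fun φ : FN (N * ℓ) →ₐ[Kbar] E => φ f) h
    exact ι.toRingHom.injective this
  refine Degree.algHom_mem_range_of_embeddings hinj
    (ι (qExpand Kbar (N * ℓ) (jqModC Kbar))) (fun q => ?_) (fun a ha => ?_) τ hτ
  · rw [AlgHom.comp_apply, cuspSigma_jF]
  · obtain ⟨P, hP⟩ := Degree.htr_of_hsym (cuspSigma_sym (N * ℓ)) a ha
    refine ⟨P, ?_⟩
    rw [Polynomial.aeval_algHom_apply, hP, map_sum]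
    rfl

theorem expA_normA (hfin : FiniteAlong Kbar (alphaH N ℓ)) (x : FN (N * ℓ)) :
    expA N ℓ (normA N ℓ x) = ∏ q ∈ fib N ℓ, cuspSigma (N * ℓ) q x := by
  classical
  letI algFM : Algebra (FN N) (FN (N * ℓ)) := algebraAlong (alphaH N ℓ)
  haveI : Module.Finite (FN N) (FN (N * ℓ)) := hfin
  let E := AlgebraicClosure (LaurentSeries Kbar)
  let ι : LaurentSeries Kbar →ₐ[Kbar] E := IsScalarTower.toAlgHom Kbar (LaurentSeries Kbar) E
  letI algE : Algebra (FN N) E := (ι.toRingHom.comp (expA N ℓ).toRingHom).toAlgebra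
  haveI : CharZero (FN N) := charZero_of_injective_algebraMap (algebraMap Kbar (FN N)).injective
  haveI : Algebra.IsAlgebraic (FN N) (FN (N * ℓ)) := Algebra.IsAlgebraic.of_finite _ _
  have hnorm := Algebra.norm_eq_prod_embeddings (FN N) E x
  -- the embeddings attached to the fibre
  let emb : {q // q ∈ fib N ℓ} → (FN (N * ℓ) →ₐ[FN N] E) := fun q =>
    { toRingHom := ι.toRingHom.comp (cuspSigma (N * ℓ) q.1).toRingHom
      commutes' := fun y => by
        show ι (cuspSigma (N * ℓ) q.1 (alphaH N ℓ y)) = ι (expA N ℓ y)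
        rw [← sigA_apply, sigA_eq_of_mem N ℓ ((mem_fib N ℓ).mp q.2)] }
  have hemb : ∀ q f, emb q f = ι (cuspSigma (N * ℓ) q.1 f) := fun q f => rfl
  have hbij : Function.Bijective emb := by
    constructor
    · intro q q' h
      apply Subtype.ext
      apply cuspSigma_injective (N * ℓ)
      apply AlgHom.ext
      intro f
      have := congrArg (fun φ : FN (N * ℓ) →ₐ[FN N] E => φ f) h
      exact ι.toRingHom.injective this
    · intro τ
      -- `τ` as a `ℚ̄`-algebra map
      let τK : FN (N * ℓ) →ₐ[Kbar] E :=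
        { toRingHom := τ.toRingHom
          commutes' := fun c => by
            have h1 : algebraMap Kbar (FN (N * ℓ)) c =
                algebraMap (FN N) (FN (N * ℓ)) (algebraMap Kbar (FN N) c) :=
              ((alphaH N ℓ).commutes c).symm
            show τ (algebraMap Kbar (FN (N * ℓ)) c) = _
            rw [h1, τ.commutes]
            show ι (expA N ℓ (algebraMap Kbar (FN N) c)) = _
            rw [AlgHom.commutes, AlgHom.commutes] }
      have hτK : ∀ f, τK f = τ f := fun f => rfl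
      have hj : τK (jF (N * ℓ)) = ι (qExpand Kbar (N * ℓ) (jqModC Kbar)) := by
        rw [hτK, ← alphaH_jF]
        have : τ (alphaH N ℓ (jF N)) = algebraMap (FN N) E (jF N) := τ.commutes (jF N)
        rw [this]
        show ι (expA N ℓ (jF N)) = _
        rw [expA_jF]
      obtain ⟨q, hq⟩ := exists_cuspSigma_eq N ℓ ι τK hj
      have hqfib : q ∈ fib N ℓ := by
        rw [mem_fib]
        apply mem_of_sigA_eq
        apply AlgHom.ext
        intro y
        apply ι.toRingHom.injective
        show ι (cuspSigma (N * ℓ) q (alphaH N ℓ y)) = ι (expA N ℓ y)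
        have h2 := congrArg (fun φ : FN (N * ℓ) →ₐ[Kbar] E => φ (alphaH N ℓ y)) hq
        simp only [AlgHom.comp_apply] at h2
        rw [← h2, hτK]
        exact τ.commutes y
      refine ⟨⟨q, hqfib⟩, ?_⟩
      apply AlgHom.ext
      intro f
      rw [hemb]
      have h2 := congrArg (fun φ : FN (N * ℓ) →ₐ[Kbar] E => φ f) hq
      simp only [AlgHom.comp_apply] at h2
      rw [← h2, hτK]
  rw [← Fintype.prod_bijective emb hbij (fun q => ι (cuspSigma (N * ℓ) q.1 x)) (fun τ => τ x)
    (fun q => (hemb q x).symm)] at hnorm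
  apply ι.toRingHom.injective
  show ι (expA N ℓ (normA N ℓ x)) = ι (∏ q ∈ fib N ℓ, cuspSigma (N * ℓ) q x)
  rw [map_prod, ← Finset.prod_coe_sort]
  exact hnorm

end Fermat.Agent.GJ.HN
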